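import Mathlib

/-!
# A change of variables is an isomorphism of point groups
-/

open WeierstrassCurve WeierstrassCurve.Affine

namespace Fermat.Agent.Isogeny

variable {F : Type*} [Field F]

/-- `x`-coordinate of the change of variables. -/
def vcX (C : VariableChange F) (x : F) : F := (C.u : F) ^ 2 * x + C.r

/-- `y`-coordinate of the change of variables. -/
def vcY (C : VariableChange F) (x y : F) : F :=
  (C.u : F) ^ 3 * y + (C.u : F) ^ 2 * C.s * x + C.t

variable {W₁ W₂ : WeierstrassCurve F}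

/-- A change of variables carries the equation of one model to that of the other. -/
theorem equation_vc (C : VariableChange F) (hC : C • W₁ = W₂) (x y : F) :
    W₁.toAffine.Equation (vcX C x) (vcY C x y) ↔ W₂.toAffine.Equation x y := by
  subst hC
  have hu : (C.u : F) ≠ 0 := C.u.ne_zero
  simp only [equation_iff', vcX, vcY, WeierstrassCurve.toAffine, variableChange_def,
    Units.val_inv_eq_inv_val]
  field_simp
  constructor <;> intro h <;> linear_combination h

theorem vc_negY (C : VariableChange F) (hC : C • W₁ = W₂) (x y : F) :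
    W₁.toAffine.negY (vcX C x) (vcY C x y) = vcY C x (W₂.toAffine.negY x y) := by
  subst hC
  have hu : (C.u : F) ≠ 0 := C.u.ne_zero
  simp only [negY, vcX, vcY, WeierstrassCurve.toAffine, variableChange_def,
    Units.val_inv_eq_inv_val]
  field_simp
  ring

variable [DecidableEq F]

theorem vc_slope (C : VariableChange F) (hC : C • W₁ = W₂) {x₁ x₂ y₁ y₂ : F}
    (h₁ : W₂.toAffine.Equation x₁ y₁) (h₂ : W₂.toAffine.Equation x₂ y₂)
    (hxy : ¬(x₁ = x₂ ∧ y₁ = W₂.toAffine.negY x₂ y₂)) :
    W₁.toAffine.slope (vcX C x₁) (vcX C x₂) (vcY C x₁ y₁) (vcY C x₂ y₂) =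
      (C.u : F) * W₂.toAffine.slope x₁ x₂ y₁ y₂ + C.s := by
  have hu : (C.u : F) ≠ 0 := C.u.ne_zero
  by_cases hx : x₁ = x₂
  · subst hx
    have hy : y₁ ≠ W₂.toAffine.negY x₁ y₂ := fun h => hxy ⟨rfl, h⟩
    obtain rfl : y₁ = y₂ := Y_eq_of_Y_ne h₁ h₂ rfl hy
    have hy' : vcY C x₁ y₁ ≠ W₁.toAffine.negY (vcX C x₁) (vcY C x₁ y₁) := by
      rw [vc_negY C hC]
      intro h
      simp only [vcY, add_left_inj] at h
      exact hy (mul_left_cancel₀ (pow_ne_zero 3 hu) h)
    rw [slope_of_Y_ne rfl hy, slope_of_Y_ne rfl hy']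
    have hd' := sub_ne_zero.mpr hy'
    have hd := sub_ne_zero.mpr hy
    subst hC
    rw [mul_div_assoc', div_add' _ _ _ hd, div_eq_div_iff hd' hd]
    simp only [negY, vcX, vcY, WeierstrassCurve.toAffine, variableChange_def,
      Units.val_inv_eq_inv_val]
    field_simp
    ring
  · have hx' : vcX C x₁ ≠ vcX C x₂ := by
      intro h
      simp only [vcX, add_left_inj] at h
      exact hx (mul_left_cancel₀ (pow_ne_zero 2 hu) h)
    rw [slope_of_X_ne hx, slope_of_X_ne hx']
    have hd : x₁ - x₂ ≠ 0 := sub_ne_zero.mpr hx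
    rw [mul_div_assoc', div_add' _ _ _ hd, div_eq_div_iff (sub_ne_zero.mpr hx') hd]
    simp only [vcX, vcY]
    ring

omit [DecidableEq F] in
theorem vc_addX (C : VariableChange F) (hC : C • W₁ = W₂) (x₁ x₂ l : F) :
    W₁.toAffine.addX (vcX C x₁) (vcX C x₂) ((C.u : F) * l + C.s) =
      vcX C (W₂.toAffine.addX x₁ x₂ l) := by
  subst hC
  have hu : (C.u : F) ≠ 0 := C.u.ne_zero
  simp only [addX, vcX, WeierstrassCurve.toAffine, variableChange_def, Units.val_inv_eq_inv_val]
  field_simp
  ring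

omit [DecidableEq F] in
theorem vc_addY (C : VariableChange F) (hC : C • W₁ = W₂) (x₁ x₂ y₁ l : F) :
    W₁.toAffine.addY (vcX C x₁) (vcX C x₂) (vcY C x₁ y₁) ((C.u : F) * l + C.s) =
      vcY C (W₂.toAffine.addX x₁ x₂ l) (W₂.toAffine.addY x₁ x₂ y₁ l) := by
  rw [addY, addY, ← vc_negY C hC, negAddY, negAddY, vc_addX C hC]
  congr 1
  simp only [vcX, vcY]
  ring

variable [W₁.IsElliptic] [W₂.IsElliptic]

omit [DecidableEq F] in
theorem nonsingular_vc (C : VariableChange F) (hC : C • W₁ = W₂) (x y : F) :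
    W₁.toAffine.Nonsingular (vcX C x) (vcY C x y) ↔ W₂.toAffine.Nonsingular x y := by
  rw [← equation_iff_nonsingular, ← equation_iff_nonsingular]
  exact equation_vc C hC x y

/-- The map on points. -/
noncomputable def vcMap (C : VariableChange F) (hC : C • W₁ = W₂) :
    W₂.toAffine.Point → W₁.toAffine.Point
  | .zero => .zero
  | .some x y h => .some (vcX C x) (vcY C x y) ((nonsingular_vc C hC x y).mpr h)

theorem vcMap_add (C : VariableChange F) (hC : C • W₁ = W₂) (P Q : W₂.toAffine.Point) :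
    vcMap C hC (P + Q) = vcMap C hC P + vcMap C hC Q := by
  rcases P with _ | ⟨x₁, y₁, h₁⟩ <;> rcases Q with _ | ⟨x₂, y₂, h₂⟩ <;>
    try rfl
  by_cases hxy : x₁ = x₂ ∧ y₁ = W₂.toAffine.negY x₂ y₂
  · rw [Point.add_of_Y_eq hxy.1 hxy.2]
    simp only [vcMap]
    rw [Point.add_of_Y_eq (congrArg _ hxy.1) (by rw [hxy.2, hxy.1, vc_negY C hC])]
    rfl
  · have hu : (C.u : F) ≠ 0 := C.u.ne_zero
    have hxy' : ¬(vcX C x₁ = vcX C x₂ ∧
        vcY C x₁ y₁ = W₁.toAffine.negY (vcX C x₂) (vcY C x₂ y₂)) := by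
      rintro ⟨hx, hy⟩
      simp only [vcX, add_left_inj] at hx
      have hx' := mul_left_cancel₀ (pow_ne_zero 2 hu) hx
      subst hx'
      rw [vc_negY C hC] at hy
      simp only [vcY, add_left_inj] at hy
      exact hxy ⟨rfl, mul_left_cancel₀ (pow_ne_zero 3 hu) hy⟩
    rw [Point.add_some hxy]
    simp only [vcMap]
    rw [Point.add_some hxy']
    simp only [Point.some.injEq, vc_slope C hC h₁.left h₂.left hxy]
    exact ⟨(vc_addX C hC _ _ _).symm, (vc_addY C hC _ _ _ _).symm⟩

/-- The isomorphism `(C • W)(F) ≃+ W(F)`. -/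
noncomputable def vcEquiv (C : VariableChange F) (hC : C • W₁ = W₂) :
    W₂.toAffine.Point ≃+ W₁.toAffine.Point where
  toFun := vcMap C hC
  invFun := vcMap C⁻¹ (by rw [← hC, inv_smul_smul])
  left_inv P := by
    have hu : (C.u : F) ≠ 0 := C.u.ne_zero
    rcases P with _ | ⟨x, y, h⟩
    · rfl
    · simp only [vcMap, Point.some.injEq, vcX, vcY, VariableChange.inv_def,
        Units.val_inv_eq_inv_val]
      constructor <;> field_simp <;> ring
  right_inv P := by
    have hu : (C.u : F) ≠ 0 := C.u.ne_zero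
    rcases P with _ | ⟨x, y, h⟩
    · rfl
    · simp only [vcMap, Point.some.injEq, vcX, vcY, VariableChange.inv_def,
        Units.val_inv_eq_inv_val]
      constructor <;> field_simp <;> ring
  map_add' := vcMap_add C hC

/-- The isomorphism of a change of variables on affine points. -/
theorem vcEquiv_some (C : VariableChange F) (hC : C • W₁ = W₂) {x y : F}
    (h : W₂.toAffine.Nonsingular x y) :
    ∃ h', vcEquiv C hC (.some x y h) =
      .some ((C.u : F) ^ 2 * x + C.r) ((C.u : F) ^ 3 * y + (C.u : F) ^ 2 * C.s * x + C.t) h' :=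
  ⟨(nonsingular_vc C hC x y).mpr h, rfl⟩

end Fermat.Agent.Isogeny
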