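import Mathlib
import Fermat.Agent.Isogeny.VariableChange

/-!
# Tate normal form
-/

open WeierstrassCurve WeierstrassCurve.Affine

namespace Fermat.Agent.Isogeny

variable {F : Type*} [Field F] [DecidableEq F]

/-- The curve `y² + (1 - c) x y - b y = x³ - b x²`. -/
def tateCurve (b c : F) : WeierstrassCurve F := ⟨1 - c, -b, -b, 0, 0⟩

theorem nsmul_ne_zero_of_lt {A : Type*} [AddGroup A] {P : A} {n k : ℕ}
    (h : addOrderOf P = n) (hk : 0 < k) (hkn : k < n) : k • P ≠ 0 :=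
  nsmul_ne_zero_of_lt_addOrderOf hk.ne' (h ▸ hkn)

/-- A point of order at least four puts the curve in Tate normal form with that point at `(0,0)`. -/
theorem exists_tateNormalForm (W : WeierstrassCurve F) [W.IsElliptic] (P : W.toAffine.Point)
    (h2 : 2 • P ≠ 0) (h3 : 3 • P ≠ 0) :
    ∃ (b c : F) (C : VariableChange F), C • W = tateCurve b c ∧ b ≠ 0 ∧
      ∃ (hE : (tateCurve b c).IsElliptic) (e : W.toAffine.Point ≃+ (tateCurve b c).toAffine.Point)
        (hns : (tateCurve b c).toAffine.Nonsingular 0 0), e P = .some 0 0 hns := by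
  rcases P with _ | ⟨x₀, y₀, h₀⟩
  · exact absurd (nsmul_zero 2) h2
  have hy : y₀ ≠ W.toAffine.negY x₀ y₀ := fun h => h2 (by
    rw [two_nsmul]; exact Point.add_self_of_Y_eq h)
  set l := W.toAffine.slope x₀ x₀ y₀ y₀ with hl
  have hA2 : W.toAffine.addX x₀ x₀ l ≠ x₀ := by
    intro h
    have hPP : Point.some x₀ y₀ h₀ + Point.some x₀ y₀ h₀ = Point.some _ _
        (nonsingular_add h₀ h₀ fun hxy => hy hxy.2) :=
      Point.add_self_of_Y_ne hy
    rcases Y_eq_of_X_eq (nonsingular_add h₀ h₀ fun hxy => hy hxy.2).left h₀.left h with hY | hY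
    · have : Point.some x₀ y₀ h₀ + Point.some x₀ y₀ h₀ = Point.some x₀ y₀ h₀ := by
        rw [hPP, Point.some.injEq]; exact ⟨h, hY⟩
      simp at this
    · have : Point.some x₀ y₀ h₀ + Point.some x₀ y₀ h₀ = -Point.some x₀ y₀ h₀ := by
        rw [hPP, Point.neg_some, Point.some.injEq]; exact ⟨h, hY⟩
      exact h3 (by rw [succ_nsmul, two_nsmul, this, neg_add_cancel])
  obtain ⟨A₂, hA₂⟩ : ∃ v, v = x₀ - W.toAffine.addX x₀ x₀ l := ⟨_, rfl⟩
  obtain ⟨A₃, hA₃⟩ : ∃ v, v = y₀ - W.toAffine.negY x₀ y₀ := ⟨_, rfl⟩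
  have hA₂0 : A₂ ≠ 0 := by rw [hA₂]; exact sub_ne_zero.mpr hA2.symm
  have hA₃0 : A₃ ≠ 0 := by rw [hA₃]; exact sub_ne_zero.mpr hy
  have hlA : l * A₃ = 3 * x₀ ^ 2 + 2 * W.a₂ * x₀ + W.a₄ - W.a₁ * y₀ := by
    rw [hl, slope_of_Y_ne rfl hy, hA₃, div_mul_cancel₀ _ (sub_ne_zero.mpr hy)]
  set u : Fˣ := Units.mk0 (A₃ / A₂) (div_ne_zero hA₃0 hA₂0) with hu
  set C : VariableChange F := ⟨u, x₀, l, y₀⟩ with hCdef
  have hEq : C • W = tateCurve (-(A₂ ^ 3 / A₃ ^ 2)) (1 - A₂ / A₃ * (W.a₁ + 2 * l)) := by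
    have h6 := (equation_iff' x₀ y₀).mp h₀.left
    simp only [addX] at hA₂
    simp only [negY] at hA₃
    ext
    all_goals simp only [hCdef, hu, variableChange_def, tateCurve, Units.val_inv_eq_inv_val,
      Units.val_mk0, inv_div, neg_neg]
    · ring
    · field_simp
      linear_combination -hA₂
    · field_simp
      linear_combination -hA₃
    · rw [mul_eq_zero]
      right
      linear_combination -hlA + l * hA₃
    · rw [mul_eq_zero]
      right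
      linear_combination -h6
  have hb : -(A₂ ^ 3 / A₃ ^ 2) ≠ 0 :=
    neg_ne_zero.mpr (div_ne_zero (pow_ne_zero _ hA₂0) (pow_ne_zero _ hA₃0))
  refine ⟨_, _, C, hEq, hb, ?_⟩
  have hE : (tateCurve (-(A₂ ^ 3 / A₃ ^ 2)) (1 - A₂ / A₃ * (W.a₁ + 2 * l))).IsElliptic :=
    hEq ▸ inferInstance
  have hns : (tateCurve (-(A₂ ^ 3 / A₃ ^ 2))
      (1 - A₂ / A₃ * (W.a₁ + 2 * l))).toAffine.Nonsingular 0 0 := by
    rw [← equation_iff_nonsingular, equation_zero]
    rfl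
  refine ⟨hE, (vcEquiv C hEq).symm, hns, ?_⟩
  rw [AddEquiv.symm_apply_eq]
  obtain ⟨h', he⟩ := vcEquiv_some C hEq hns
  rw [he, Point.some.injEq]
  simp [hCdef]

section Multiples

variable {b c : F}

theorem add_eq_some {W : WeierstrassCurve F} {x₁ y₁ x₂ y₂ l x₃ y₃ : F}
    {h₁ : W.toAffine.Nonsingular x₁ y₁} {h₂ : W.toAffine.Nonsingular x₂ y₂}
    (hxy : ¬(x₁ = x₂ ∧ y₁ = W.toAffine.negY x₂ y₂))
    (hl : W.toAffine.slope x₁ x₂ y₁ y₂ = l)
    (hx : W.toAffine.addX x₁ x₂ l = x₃) (hy : W.toAffine.addY x₁ x₂ y₁ l = y₃) :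
    ∃ h, Point.some x₁ y₁ h₁ + Point.some x₂ y₂ h₂ = Point.some x₃ y₃ h := by
  subst hl hx hy
  exact ⟨_, Point.add_some hxy⟩

theorem tate_two (hb : b ≠ 0) (hns : (tateCurve b c).toAffine.Nonsingular 0 0) :
    ∃ h, (2 : ℕ) • Point.some 0 0 hns = Point.some b (b * c) h := by
  have hy : (0 : F) ≠ (tateCurve b c).toAffine.negY 0 0 := by
    simp [negY, tateCurve, hb.symm]
  have hl : (tateCurve b c).toAffine.slope 0 0 0 0 = 0 := by
    rw [slope_of_Y_ne rfl hy]; simp [tateCurve]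
  rw [two_nsmul]
  refine add_eq_some (fun h => hy h.2) hl ?_ ?_
  · simp only [addX, tateCurve]; ring
  · simp only [addY, negAddY, addX, negY, tateCurve]; ring

theorem tate_three (hb : b ≠ 0) (hns : (tateCurve b c).toAffine.Nonsingular 0 0) :
    ∃ h, (3 : ℕ) • Point.some 0 0 hns = Point.some c (b - c) h := by
  obtain ⟨h', h2⟩ := tate_two hb hns
  rw [succ_nsmul, h2]
  refine add_eq_some (fun h => hb h.1) (l := c) ?_ ?_ ?_
  · rw [slope_of_X_ne hb]; field_simp; ring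
  · simp only [addX, tateCurve]; ring
  · simp only [addY, negAddY, addX, negY, tateCurve]; ring

theorem tate_four {r : F} (hc : c ≠ 0) (hbr : b = r * c) (hb : b ≠ 0)
    (hns : (tateCurve b c).toAffine.Nonsingular 0 0) :
    ∃ h, (4 : ℕ) • Point.some 0 0 hns =
      Point.some (r * (r - 1)) (r ^ 2 * (c - r + 1)) h := by
  obtain ⟨h', h3⟩ := tate_three hb hns
  rw [succ_nsmul, h3]
  refine add_eq_some (fun h => hc h.1) (l := r - 1) ?_ ?_ ?_
  · rw [slope_of_X_ne hc, hbr]; field_simp; ring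
  · simp only [addX, tateCurve, hbr]; ring
  · simp only [addY, negAddY, addX, negY, tateCurve, hbr]; ring

variable [(tateCurve b c).IsElliptic]

omit [DecidableEq F] in
theorem some_eq_or_eq_neg {W : WeierstrassCurve F} {x₁ y₁ x₂ y₂ : F}
    {h₁ : W.toAffine.Nonsingular x₁ y₁} {h₂ : W.toAffine.Nonsingular x₂ y₂} (hx : x₁ = x₂) :
    Point.some x₁ y₁ h₁ = Point.some x₂ y₂ h₂ ∨ Point.some x₁ y₁ h₁ = -Point.some x₂ y₂ h₂ := by
  rcases Y_eq_of_X_eq h₁.left h₂.left hx with hy | hy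
  · left; simp [hx, hy]
  · right; simp [Point.neg_some, hx, hy]

omit [(tateCurve b c).IsElliptic] in
/-- Order five. -/
theorem tate_order_five (hb : b ≠ 0)
    (hns : (tateCurve b c).toAffine.Nonsingular 0 0)
    (h : addOrderOf (Point.some 0 0 hns) = 5) : c = b := by
  obtain ⟨h2', h2⟩ := tate_two hb hns
  obtain ⟨h3', h3⟩ := tate_three hb hns
  have h5 : (3 : ℕ) • Point.some 0 0 hns = -((2 : ℕ) • Point.some 0 0 hns) := by
    rw [eq_neg_iff_add_eq_zero, ← add_nsmul, show 3 + 2 = 5 from rfl, ← h]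
    exact addOrderOf_nsmul_eq_zero _
  rw [h2, h3, Point.neg_some, Point.some.injEq] at h5
  exact h5.1

omit [(tateCurve b c).IsElliptic] in
theorem tate_c_ne_zero {n : ℕ} (hb : b ≠ 0) (hns : (tateCurve b c).toAffine.Nonsingular 0 0)
    (h : addOrderOf (Point.some 0 0 hns) = n) (hn : 5 ≤ n) : c ≠ 0 := by
  intro hc
  obtain ⟨h3', h3⟩ := tate_three hb hns
  rcases some_eq_or_eq_neg (h₁ := h3') (h₂ := hns) hc with e | e <;> rw [← h3] at e
  · exact nsmul_ne_zero_of_lt h two_pos (by omega) (by rwa [succ_nsmul, add_eq_right] at e)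
  · refine nsmul_ne_zero_of_lt h (k := 4) (by omega) (by omega) ?_
    rw [succ_nsmul, e, neg_add_cancel]

omit [(tateCurve b c).IsElliptic] in
/-- Order seven. -/
theorem tate_order_seven (hb : b ≠ 0)
    (hns : (tateCurve b c).toAffine.Nonsingular 0 0)
    (h : addOrderOf (Point.some 0 0 hns) = 7) :
    ∃ d : F, d ≠ 0 ∧ d ≠ 1 ∧ b = d ^ 3 - d ^ 2 ∧ c = d ^ 2 - d := by
  have hc := tate_c_ne_zero hb hns h (by norm_num)
  obtain ⟨r, hbr⟩ : ∃ r, b = r * c := ⟨b / c, (div_mul_cancel₀ b hc).symm⟩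
  obtain ⟨h3', h3⟩ := tate_three hb hns
  obtain ⟨h4', h4⟩ := tate_four hc hbr hb hns
  have h7 : (4 : ℕ) • Point.some 0 0 hns = -((3 : ℕ) • Point.some 0 0 hns) := by
    rw [eq_neg_iff_add_eq_zero, ← add_nsmul, show 4 + 3 = 7 from rfl, ← h]
    exact addOrderOf_nsmul_eq_zero _
  rw [h3, h4, Point.neg_some, Point.some.injEq] at h7
  refine ⟨r, ?_, ?_, ?_, ?_⟩
  · rintro rfl; exact hb (by simpa using hbr)
  · rintro rfl; exact hc (by linear_combination -h7.1)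
  · linear_combination hbr - r * h7.1
  · linear_combination -h7.1

omit [(tateCurve b c).IsElliptic] in
/-- The parameters `r = b / c` and `s = c² / (b - c)`. -/
theorem tate_params {n : ℕ} (hb : b ≠ 0) (hns : (tateCurve b c).toAffine.Nonsingular 0 0)
    (h : addOrderOf (Point.some 0 0 hns) = n) (hn : 8 ≤ n) :
    ∃ r s : F, b = r * s * (r - 1) ∧ c = s * (r - 1) ∧ r ≠ 0 ∧ r ≠ 1 ∧ s ≠ 0 ∧ s ≠ 1 ∧ r ≠ s := by
  have hc := tate_c_ne_zero hb hns h (by omega)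
  obtain ⟨r, hbr⟩ : ∃ r, b = r * c := ⟨b / c, (div_mul_cancel₀ b hc).symm⟩
  obtain ⟨h2', h2⟩ := tate_two hb hns
  obtain ⟨h3', h3⟩ := tate_three hb hns
  obtain ⟨h4', h4⟩ := tate_four hc hbr hb hns
  have hr0 : r ≠ 0 := by rintro rfl; exact hb (by simpa using hbr)
  have hr1 : r - 1 ≠ 0 := by
    intro hr
    have hbc : c = b := by linear_combination -hbr - c * hr
    refine nsmul_ne_zero_of_lt h (k := 5) (by omega) (by omega) ?_
    rw [show (5 : ℕ) = 3 + 2 from rfl, add_nsmul, h2, h3]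
    refine Point.add_of_Y_eq hbc ?_
    simp only [negY, tateCurve]
    linear_combination -hbc
  obtain ⟨s, hcs⟩ : ∃ s, c = s * (r - 1) := ⟨c / (r - 1), (div_mul_cancel₀ c hr1).symm⟩
  refine ⟨r, s, by rw [hbr, hcs]; ring, hcs, hr0, sub_ne_zero.mp hr1, ?_, ?_, ?_⟩
  · rintro rfl; exact hc (by simpa using hcs)
  · intro hs
    refine nsmul_ne_zero_of_lt h (k := 6) (by omega) (by omega) ?_
    rw [show (6 : ℕ) = 3 + 3 from rfl, add_nsmul, h3]
    refine Point.add_of_Y_eq rfl ?_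
    simp only [negY, tateCurve, hbr, hcs, hs]
    ring
  · intro hrs
    have hx : r * (r - 1) = c := by rw [hcs, hrs]
    rcases some_eq_or_eq_neg (h₁ := h4') (h₂ := h3') hx with e | e <;> rw [← h3, ← h4] at e
    · exact nsmul_ne_zero_of_lt h one_pos (by omega)
        (by rw [succ_nsmul _ 3, add_eq_left] at e; rwa [one_nsmul])
    · refine nsmul_ne_zero_of_lt h (k := 7) (by omega) (by omega) ?_
      rw [show (7 : ℕ) = 4 + 3 from rfl, add_nsmul, e, neg_add_cancel]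

omit [(tateCurve b c).IsElliptic] in
theorem tate_five {r s : F} (hbr : b = r * s * (r - 1)) (hcr : c = s * (r - 1)) (hc : c ≠ 0)
    (hr : r ≠ 1) (hb : b ≠ 0) (hns : (tateCurve b c).toAffine.Nonsingular 0 0) :
    ∃ y h, (5 : ℕ) • Point.some 0 0 hns = Point.some (r * s * (s - 1)) y h := by
  obtain ⟨h2', h2⟩ := tate_two hb hns
  obtain ⟨h3', h3⟩ := tate_three hb hns
  have hne : b ≠ c := by
    intro h
    refine mul_ne_zero hc (sub_ne_zero.mpr hr) ?_
    linear_combination h - hbr + r * hcr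
  rw [show (5 : ℕ) = 2 + 3 from rfl, add_nsmul, h2, h3]
  refine ⟨_, add_eq_some (fun h => hne h.1) (l := r * s - 1) ?_ ?_ rfl⟩
  · rw [slope_of_X_ne hne, div_eq_iff (sub_ne_zero.mpr hne), hbr, hcr]; ring
  · simp only [addX, tateCurve, hbr, hcr]; ring

omit [(tateCurve b c).IsElliptic] in
theorem tate_six {r s : F} (hbr : b = r * s * (r - 1)) (hcr : c = s * (r - 1)) (hc : c ≠ 0)
    (hr : r ≠ 1) (hs : s ≠ 1) (hb : b ≠ 0) (hns : (tateCurve b c).toAffine.Nonsingular 0 0) :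
    ∃ x y h, (6 : ℕ) • Point.some 0 0 hns = Point.some x y h ∧
      x * (1 - s) ^ 2 = (2 * s - r * s - 1) ^ 2 + (1 - c) * (2 * s - r * s - 1) * (1 - s)
        + (b - 2 * c) * (1 - s) ^ 2 := by
  obtain ⟨h3', h3⟩ := tate_three hb hns
  have hs' : 1 - s ≠ 0 := sub_ne_zero.mpr hs.symm
  have hy : b - c ≠ (tateCurve b c).toAffine.negY c (b - c) := by
    intro h
    refine mul_ne_zero (mul_ne_zero hc (sub_ne_zero.mpr hr)) hs' ?_
    simp only [negY, tateCurve] at h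
    rw [hbr, hcr] at h
    rw [hcr]
    linear_combination h
  rw [show (6 : ℕ) = 3 + 3 from rfl, add_nsmul, h3]
  obtain ⟨h', e⟩ := add_eq_some (h₁ := h3') (h₂ := h3') (fun h => hy h.2)
    (l := (2 * s - r * s - 1) / (1 - s))
    (by
      rw [slope_of_Y_ne rfl hy, div_eq_div_iff (sub_ne_zero.mpr hy) hs']
      simp only [negY, tateCurve, hbr, hcr]
      ring) rfl rfl
  refine ⟨_, _, h', e, ?_⟩
  simp only [addX, tateCurve]
  field_simp
  ring

omit [(tateCurve b c).IsElliptic] in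
/-- Order eleven: a point of `r² - 4rs + 3rs² - rs³ + s = 0` off the cusps. -/
theorem tate_order_eleven (hb : b ≠ 0)
    (hns : (tateCurve b c).toAffine.Nonsingular 0 0)
    (h : addOrderOf (Point.some 0 0 hns) = 11) :
    ∃ r s : F, b = r * s * (r - 1) ∧ c = s * (r - 1) ∧ r ≠ 0 ∧ r ≠ 1 ∧ s ≠ 0 ∧ s ≠ 1 ∧ r ≠ s ∧
      r ^ 2 - 4 * r * s + 3 * r * s ^ 2 - r * s ^ 3 + s = 0 := by
  obtain ⟨r, s, hbr, hcr, hr0, hr1, hs0, hs1, hrs⟩ := tate_params hb hns h (by norm_num)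
  have hc : c ≠ 0 := hcr ▸ mul_ne_zero hs0 (sub_ne_zero.mpr hr1)
  obtain ⟨y5, h5', h5⟩ := tate_five hbr hcr hc hr1 hb hns
  obtain ⟨x6, y6, h6', h6, hx6⟩ := tate_six hbr hcr hc hr1 hs1 hb hns
  have h11 : (6 : ℕ) • Point.some 0 0 hns = -((5 : ℕ) • Point.some 0 0 hns) := by
    rw [eq_neg_iff_add_eq_zero, ← add_nsmul, show 6 + 5 = 11 from rfl, ← h]
    exact addOrderOf_nsmul_eq_zero _
  rw [h5, h6, Point.neg_some, Point.some.injEq] at h11
  refine ⟨r, s, hbr, hcr, hr0, hr1, hs0, hs1, hrs, ?_⟩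
  refine (mul_eq_zero.mp ?_).resolve_left hs0
  rw [h11.1, hbr, hcr] at hx6
  linear_combination -hx6

omit [(tateCurve b c).IsElliptic] in
/-- Order thirteen. -/
theorem tate_order_thirteen (hb : b ≠ 0)
    (hns : (tateCurve b c).toAffine.Nonsingular 0 0)
    (h : addOrderOf (Point.some 0 0 hns) = 13) :
    ∃ r s : F, b = r * s * (r - 1) ∧ c = s * (r - 1) ∧ r ≠ 0 ∧ r ≠ 1 ∧ s ≠ 0 ∧ s ≠ 1 ∧ r ≠ s ∧
      r ^ 3 - r ^ 2 * s ^ 4 + 5 * r ^ 2 * s ^ 3 - 9 * r ^ 2 * s ^ 2 + 4 * r ^ 2 * s - 2 * r ^ 2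
        - r * s ^ 3 + 6 * r * s ^ 2 - 3 * r * s + r - s ^ 3 = 0 := by
  obtain ⟨r, s, hbr, hcr, hr0, hr1, hs0, hs1, hrs⟩ := tate_params hb hns h (by norm_num)
  have hc : c ≠ 0 := hcr ▸ mul_ne_zero hs0 (sub_ne_zero.mpr hr1)
  obtain ⟨x6, y6, h6', h6, hx6⟩ := tate_six hbr hcr hc hr1 hs1 hb hns
  obtain ⟨h3', h3⟩ := tate_three hb hns
  obtain ⟨h4', h4⟩ := tate_four (r := r) hc (by rw [hbr, hcr]; ring) hb hns
  have hd : r - s ≠ 0 := sub_ne_zero.mpr hrs
  have hne : r * (r - 1) ≠ c := by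
    intro e
    refine mul_ne_zero hd (sub_ne_zero.mpr hr1) ?_
    linear_combination e + hcr
  obtain ⟨h7', h7⟩ := add_eq_some (h₁ := h4') (h₂ := h3') (fun h => hne h.1)
    (l := (r ^ 2 * s - r ^ 2 - r * s + s) / (r - s))
    (by
      rw [slope_of_X_ne hne, div_eq_div_iff (sub_ne_zero.mpr hne) hd, hbr, hcr]
      ring) rfl rfl
  have h13 : (4 : ℕ) • Point.some 0 0 hns + (3 : ℕ) • Point.some 0 0 hns
      = -((6 : ℕ) • Point.some 0 0 hns) := by
    rw [eq_neg_iff_add_eq_zero, ← add_nsmul, ← add_nsmul, show 4 + 3 + 6 = 13 from rfl, ← h]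
    exact addOrderOf_nsmul_eq_zero _
  rw [h4, h3, h7, h6, Point.neg_some, Point.some.injEq] at h13
  refine ⟨r, s, hbr, hcr, hr0, hr1, hs0, hs1, hrs, ?_⟩
  refine (mul_eq_zero.mp ?_).resolve_left (mul_ne_zero hs0 (sub_ne_zero.mpr hr1.symm))
  have hx7 := h13.1
  simp only [addX, tateCurve] at hx7
  field_simp at hx7
  rw [hbr, hcr] at hx6 hx7
  linear_combination (1 - s) ^ 2 * hx7 + (r - s) ^ 2 * hx6

end Multiples

end Fermat.Agent.Isogeny
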