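import Mathlib

/-!
# Short Weierstrass curves and coefficientwise maps of point groups
-/

open WeierstrassCurve WeierstrassCurve.Affine

namespace Fermat.Agent.Isogeny

/-- The curve `y² = x³ + A x + B`. -/
abbrev shortCurve {R : Type*} [CommRing R] (A B : R) : WeierstrassCurve R := ⟨0, 0, 0, A, B⟩

/-- An element of `ℚ̄` fixed by every automorphism is rational. -/
theorem exists_algebraMap_eq_of_fixed (z : AlgebraicClosure ℚ)
    (hz : ∀ σ : AlgebraicClosure ℚ ≃ₐ[ℚ] AlgebraicClosure ℚ, σ z = z) :
    ∃ q : ℚ, algebraMap ℚ (AlgebraicClosure ℚ) q = z := by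
  have hA : Algebra.IsAlgebraic ℚ (AlgebraicClosure ℚ) := AlgebraicClosure.isAlgebraic ℚ
  have hC : IsAlgClosure ℚ (AlgebraicClosure ℚ) := ⟨inferInstance, hA⟩
  have hG : IsGalois ℚ (AlgebraicClosure ℚ) := IsAlgClosure.isGalois ℚ (AlgebraicClosure ℚ)
  exact (InfiniteGalois.mem_range_algebraMap_iff_fixed z).mpr hz

section Short

variable {R : Type*} [CommRing R] {A B : R}

theorem short_equation_iff (x y : R) :
    (shortCurve A B).toAffine.Equation x y ↔ y ^ 2 = x ^ 3 + A * x + B := by
  simp [equation_iff]

theorem short_negY (x y : R) : (shortCurve A B).toAffine.negY x y = -y := by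
  simp [negY]

theorem short_Δ : (shortCurve A B).Δ = -16 * (4 * A ^ 3 + 27 * B ^ 2) := by
  simp only [WeierstrassCurve.Δ, WeierstrassCurve.b₂, WeierstrassCurve.b₄, WeierstrassCurve.b₆,
    WeierstrassCurve.b₈]
  ring

theorem short_map {S : Type*} [CommRing S] (ι : R →+* S) :
    (shortCurve A B).map ι = shortCurve (ι A) (ι B) := by
  ext <;> simp

end Short

section CoordMap

variable {F L : Type*} [Field F] [Field L] [DecidableEq F] [DecidableEq L]
  {W : WeierstrassCurve F} {W' : WeierstrassCurve L}

omit [DecidableEq F] [DecidableEq L] in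
theorem nonsingular_coordMap (ι : F →+* L) (h : W.map ι = W') {x y : F}
    (hxy : W.toAffine.Nonsingular x y) : W'.toAffine.Nonsingular (ι x) (ι y) :=
  h ▸ (W.toAffine.map_nonsingular ι.injective x y).mpr hxy

/-- The homomorphism of point groups given by applying a field homomorphism to coordinates. -/
noncomputable def coordMap (ι : F →+* L) (h : W.map ι = W') :
    W.toAffine.Point →+ W'.toAffine.Point where
  toFun P := match P with
    | .zero => .zero
    | .some x y hxy => .some (ι x) (ι y) (nonsingular_coordMap ι h hxy)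
  map_zero' := rfl
  map_add' := by
    rintro (_ | ⟨x₁, y₁, h₁⟩) (_ | ⟨x₂, y₂, h₂⟩)
    any_goals rfl
    subst h
    by_cases hxy : x₁ = x₂ ∧ y₁ = W.toAffine.negY x₂ y₂
    · rw [Point.add_of_Y_eq hxy.1 hxy.2]
      exact (Point.add_of_Y_eq (congrArg ι hxy.1)
        (by rw [hxy.2]; exact (map_negY (W' := W.toAffine) ι x₂ y₂).symm)).symm
    · have hxy' : ¬(ι x₁ = ι x₂ ∧ ι y₁ = (W.map ι).toAffine.negY (ι x₂) (ι y₂)) := fun hh =>
        hxy ⟨ι.injective hh.1,
          ι.injective (hh.2.trans (map_negY (W' := W.toAffine) ι x₂ y₂))⟩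
      rw [Point.add_some hxy]
      refine Eq.trans ?_ (Point.add_some hxy').symm
      simp only [Point.some.injEq]
      constructor
      · rw [← map_addX (W' := W.toAffine), ← map_slope (W := W.toAffine) ι]
      · rw [← map_addY (W' := W.toAffine), ← map_slope (W := W.toAffine) ι]

theorem coordMap_some (ι : F →+* L) (h : W.map ι = W') {x y : F}
    (hxy : W.toAffine.Nonsingular x y) :
    coordMap ι h (.some x y hxy) = .some (ι x) (ι y) (nonsingular_coordMap ι h hxy) := rfl

theorem coordMap_injective (ι : F →+* L) (h : W.map ι = W') :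
    Function.Injective (coordMap ι h) := by
  rintro (_ | ⟨x₁, y₁, h₁⟩) (_ | ⟨x₂, y₂, h₂⟩) he
  any_goals contradiction
  · rfl
  · rw [coordMap_some, coordMap_some, Point.some.injEq] at he
    simp only [Point.some.injEq]
    exact ⟨ι.injective he.1, ι.injective he.2⟩

/-- The `x`-coordinate, with `0` at the origin. -/
def xCoord (P : W.toAffine.Point) : F :=
  match P with
  | .zero => 0
  | .some x _ _ => x

omit [DecidableEq F] in
theorem xCoord_some {x y : F} (h : W.toAffine.Nonsingular x y) :
    xCoord (Point.some x y h) = x := rfl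

omit [DecidableEq F] in
theorem xCoord_zero : xCoord (0 : W.toAffine.Point) = 0 := rfl

omit [DecidableEq F] in
theorem xCoord_neg (P : W.toAffine.Point) : xCoord (-P) = xCoord P := by
  cases P <;> rfl

theorem xCoord_coordMap (ι : F →+* L) (h : W.map ι = W') (P : W.toAffine.Point) :
    xCoord (coordMap ι h P) = ι (xCoord P) := by
  cases P
  · exact ι.map_zero.symm
  · rfl

end CoordMap

end Fermat.Agent.Isogeny
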