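import Mathlib

/-!
# Laurent series: the derivation `t d/dt`, values at `0`, coefficientwise maps
-/

noncomputable section

namespace Fermat.Agent.Isogeny

variable {F : Type*} [Field F]

-- use the module structure coming from the algebra structure
attribute [local instance 10000] Algebra.toModule

/-- `t d/dt` on Laurent series, as a function. -/
def thetaFun (f : LaurentSeries F) : LaurentSeries F where
  coeff n := (n : F) * f.coeff n
  isPWO_support' := f.isPWO_support'.mono fun n hn => by
    simp only [Function.mem_support, ne_eq, mul_eq_zero, not_or] at hn ⊢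
    exact hn.2

theorem thetaFun_coeff (f : LaurentSeries F) (n : ℤ) :
    (thetaFun f).coeff n = (n : F) * f.coeff n := rfl

theorem thetaFun_support_subset (f : LaurentSeries F) :
    (thetaFun f).support ⊆ f.support := fun n hn => by
  simp only [HahnSeries.mem_support, thetaFun_coeff, ne_eq, mul_eq_zero, not_or] at hn ⊢
  exact hn.2

theorem algebraMap_eq_C (c : F) : algebraMap F (LaurentSeries F) c = HahnSeries.C c := by
  rw [HahnSeries.algebraMap_apply', ← PowerSeries.C_eq_algebraMap, HahnSeries.ofPowerSeries_C]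

theorem thetaFun_mul (f g : LaurentSeries F) :
    thetaFun (f * g) = f * thetaFun g + g * thetaFun f := by
  ext n
  simp only [HahnSeries.coeff_add', Pi.add_apply, thetaFun_coeff]
  rw [HahnSeries.coeff_mul,
    HahnSeries.coeff_mul_right' (g.isPWO_support) (thetaFun_support_subset g),
    HahnSeries.coeff_mul_right' (f.isPWO_support) (thetaFun_support_subset f),
    Finset.mul_sum]
  have hswap : ∑ ij ∈ Finset.antidiagonal g.isPWO_support f.isPWO_support n,
        g.coeff ij.1 * (thetaFun f).coeff ij.2 =
      ∑ ij ∈ Finset.antidiagonal f.isPWO_support g.isPWO_support n,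
        (thetaFun f).coeff ij.1 * g.coeff ij.2 := by
    refine Finset.sum_bij' (fun ij _ => (ij.2, ij.1)) (fun ij _ => (ij.2, ij.1))
      ?_ ?_ ?_ ?_ ?_
    · intro ij hij
      simp only [Finset.mem_antidiagonal] at hij ⊢
      exact ⟨hij.2.1, hij.1, by rw [add_comm]; exact hij.2.2⟩
    · intro ij hij
      simp only [Finset.mem_antidiagonal] at hij ⊢
      exact ⟨hij.2.1, hij.1, by rw [add_comm]; exact hij.2.2⟩
    · intro ij _; rfl
    · intro ij _; rfl
    · intro ij _; rw [mul_comm]
  rw [hswap, ← Finset.sum_add_distrib]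
  refine Finset.sum_congr rfl fun ij hij => ?_
  simp only [Finset.mem_antidiagonal] at hij
  rw [thetaFun_coeff, thetaFun_coeff, ← hij.2.2]
  push_cast
  ring

theorem thetaFun_smul (c : F) (f : LaurentSeries F) :
    thetaFun (algebraMap F (LaurentSeries F) c * f) =
      algebraMap F (LaurentSeries F) c * thetaFun f := by
  have h0 : thetaFun (algebraMap F (LaurentSeries F) c) = 0 := by
    ext n
    rw [algebraMap_eq_C, thetaFun_coeff, HahnSeries.C_apply, HahnSeries.coeff_single]
    by_cases h : n = 0 <;> simp [h]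
  rw [thetaFun_mul, h0, mul_zero, add_zero]

/-- `t d/dt` as a derivation over the constants. -/
def theta : Derivation F (LaurentSeries F) (LaurentSeries F) :=
  Derivation.mk'
    { toFun := thetaFun
      map_add' := fun f g => by
        ext n; simp [thetaFun_coeff, mul_add]
      map_smul' := fun c f => by
        simp only [RingHom.id_apply, Algebra.smul_def]
        exact thetaFun_smul c f }
    thetaFun_mul

theorem theta_coeff (f : LaurentSeries F) (n : ℤ) : (theta f).coeff n = (n : F) * f.coeff n := rfl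

theorem exists_C_of_theta_eq_zero [CharZero F] {f : LaurentSeries F} (h : theta f = 0) :
    ∃ c : F, HahnSeries.C c = f := by
  refine ⟨f.coeff 0, ?_⟩
  ext n
  rw [HahnSeries.C_apply, HahnSeries.coeff_single]
  by_cases hn : n = 0
  · simp [hn]
  · have := congrArg (fun g => HahnSeries.coeff g n) h
    simp only [theta_coeff, HahnSeries.coeff_zero, mul_eq_zero, Int.cast_eq_zero, hn,
      false_or] at this
    simp [hn, this]

theorem theta_algebraMap (c : F) : theta (algebraMap F (LaurentSeries F) c) = 0 :=
  theta.map_algebraMap c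

/-- The constants embedded in Laurent series. -/
abbrev cst : F →+* LaurentSeries F := algebraMap F (LaurentSeries F)

/-- The parameter `t`. -/
abbrev tt : LaurentSeries F := HahnSeries.single 1 1

theorem tt_ne_zero : (tt : LaurentSeries F) ≠ 0 := by simp

theorem theta_tt : theta (tt : LaurentSeries F) = tt := by
  ext n
  rw [theta_coeff, HahnSeries.coeff_single]
  by_cases h : n = 1 <;> simp [h]

/-- `f` is a power series with constant term `a`. -/
def HasValue (f : LaurentSeries F) (a : F) : Prop :=
  ∃ g : PowerSeries F, HahnSeries.ofPowerSeries ℤ F g = f ∧ PowerSeries.constantCoeff g = a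

namespace HasValue

variable {f g : LaurentSeries F} {a b : F}

theorem unique (h : HasValue f a) (h' : HasValue f b) : a = b := by
  obtain ⟨u, rfl, rfl⟩ := h
  obtain ⟨v, hv, rfl⟩ := h'
  rw [HahnSeries.ofPowerSeries_injective hv]

theorem add (hf : HasValue f a) (hg : HasValue g b) : HasValue (f + g) (a + b) := by
  obtain ⟨u, rfl, rfl⟩ := hf
  obtain ⟨v, rfl, rfl⟩ := hg
  exact ⟨u + v, map_add _ _ _, map_add _ _ _⟩

theorem mul (hf : HasValue f a) (hg : HasValue g b) : HasValue (f * g) (a * b) := by
  obtain ⟨u, rfl, rfl⟩ := hf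
  obtain ⟨v, rfl, rfl⟩ := hg
  exact ⟨u * v, map_mul _ _ _, map_mul _ _ _⟩

theorem neg (hf : HasValue f a) : HasValue (-f) (-a) := by
  obtain ⟨u, rfl, rfl⟩ := hf
  exact ⟨-u, map_neg _ _, map_neg _ _⟩

theorem sub (hf : HasValue f a) (hg : HasValue g b) : HasValue (f - g) (a - b) := by
  simpa only [sub_eq_add_neg] using hf.add hg.neg

theorem const (c : F) : HasValue (cst c) c :=
  ⟨PowerSeries.C c, by rw [HahnSeries.ofPowerSeries_C]; exact (algebraMap_eq_C c).symm,
    PowerSeries.constantCoeff_C c⟩

theorem zero : HasValue (0 : LaurentSeries F) 0 := ⟨0, map_zero _, map_zero _⟩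

theorem one : HasValue (1 : LaurentSeries F) 1 := ⟨1, map_one _, map_one _⟩

theorem natCast (n : ℕ) : HasValue (n : LaurentSeries F) (n : F) :=
  ⟨n, map_natCast _ n, map_natCast _ n⟩

theorem ofNat (n : ℕ) [n.AtLeastTwo] :
    HasValue (OfNat.ofNat n : LaurentSeries F) (OfNat.ofNat n : F) :=
  natCast n

theorem pow (hf : HasValue f a) (n : ℕ) : HasValue (f ^ n) (a ^ n) := by
  obtain ⟨u, rfl, rfl⟩ := hf
  exact ⟨u ^ n, map_pow _ _ _, map_pow _ _ _⟩

theorem param : HasValue (tt : LaurentSeries F) 0 :=
  ⟨PowerSeries.X, HahnSeries.ofPowerSeries_X, PowerSeries.constantCoeff_X⟩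

theorem ne_zero (hf : HasValue f a) (ha : a ≠ 0) : f ≠ 0 :=
  fun h => ha (hf.unique (h ▸ zero))

theorem inv (hf : HasValue f a) (ha : a ≠ 0) : HasValue f⁻¹ a⁻¹ := by
  obtain ⟨u, rfl, rfl⟩ := hf
  refine ⟨u⁻¹, ?_, PowerSeries.constantCoeff_inv u⟩
  refine eq_inv_of_mul_eq_one_left ?_
  rw [← map_mul, PowerSeries.inv_mul_cancel u ha, map_one]

theorem div (hf : HasValue f a) (hg : HasValue g b) (hb : b ≠ 0) : HasValue (f / g) (a / b) := by
  simpa only [div_eq_mul_inv] using hf.mul (hg.inv hb)

theorem sum {ι : Type*} (s : Finset ι) {u : ι → LaurentSeries F} {v : ι → F}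
    (h : ∀ i ∈ s, HasValue (u i) (v i)) : HasValue (∑ i ∈ s, u i) (∑ i ∈ s, v i) := by
  classical
  induction s using Finset.induction_on with
  | empty => simpa using zero
  | insert i s hi ih =>
    rw [Finset.sum_insert hi, Finset.sum_insert hi]
    exact (h i (Finset.mem_insert_self i s)).add
      (ih fun j hj => h j (Finset.mem_insert_of_mem hj))

theorem aeval (hf : HasValue f a) (p : Polynomial F) :
    HasValue (Polynomial.aeval f p) (p.eval a) := by
  induction p using Polynomial.induction_on' with
  | add p q hp hq => rw [map_add, Polynomial.eval_add]; exact hp.add hq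
  | monomial n c =>
    rw [Polynomial.aeval_monomial, Polynomial.eval_monomial]
    exact (const c).mul (hf.pow n)

/-- An element with a value times a positive power of `t` has value zero. -/
theorem mul_param (hf : HasValue f a) {n : ℕ} (hn : n ≠ 0) : HasValue (f * tt ^ n) 0 := by
  simpa [zero_pow hn] using hf.mul (param.pow n)

/-- If `f * t ^ n` has a nonzero value (`n > 0`) then `f` has no value. -/
theorem false_of_pole (hf : HasValue f a) {n : ℕ} (hn : n ≠ 0) (h : HasValue (f * tt ^ n) b)
    (hb : b ≠ 0) : False :=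
  hb (h.unique (hf.mul_param hn))

end HasValue

/-- Coefficientwise map. -/
def coeffMap (σ : F →+* F) : LaurentSeries F →+* LaurentSeries F where
  toFun f := f.map σ
  map_one' := HahnSeries.map_one σ.toMonoidWithZeroHom
  map_mul' f g := HahnSeries.map_mul (σ : F →ₙ+* F)
  map_zero' := by ext n; simp
  map_add' f g := by ext n; simp

theorem coeffMap_coeff (σ : F →+* F) (f : LaurentSeries F) (n : ℤ) :
    (coeffMap σ f).coeff n = σ (f.coeff n) := rfl

theorem coeffMap_cst (σ : F →+* F) (c : F) : coeffMap σ (cst c) = cst (σ c) := by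
  ext n
  rw [coeffMap_coeff, algebraMap_eq_C, algebraMap_eq_C, HahnSeries.C_apply, HahnSeries.C_apply,
    HahnSeries.coeff_single, HahnSeries.coeff_single]
  by_cases h : n = 0 <;> simp [h]

theorem coeffMap_tt (σ : F →+* F) : coeffMap σ (tt : LaurentSeries F) = tt := by
  ext n
  rw [coeffMap_coeff, HahnSeries.coeff_single]
  by_cases h : n = 1 <;> simp [h]

theorem coeffMap_hasValue (σ : F →+* F) {f : LaurentSeries F} {a : F} (h : HasValue f a) :
    HasValue (coeffMap σ f) (σ a) := by
  obtain ⟨g, rfl, rfl⟩ := h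
  refine ⟨PowerSeries.map σ g, ?_, by rw [← PowerSeries.coeff_zero_eq_constantCoeff_apply, PowerSeries.coeff_map, PowerSeries.coeff_zero_eq_constantCoeff_apply]⟩
  ext n
  rw [coeffMap_coeff]
  obtain ⟨k, rfl⟩ | hn : (∃ k : ℕ, n = k) ∨ n < 0 := by
    rcases le_or_gt 0 n with h | h
    · exact Or.inl ⟨n.toNat, (Int.toNat_of_nonneg h).symm⟩
    · exact Or.inr h
  · rw [HahnSeries.ofPowerSeries_apply_coeff, HahnSeries.ofPowerSeries_apply_coeff,
      PowerSeries.coeff_map]
  · rw [PowerSeries.coeff_coe, PowerSeries.coeff_coe, if_pos hn, if_pos hn, map_zero]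

/-- A square root with constant term `1` of a power series with constant term `1`. -/
theorem exists_sqrt [CharZero F] {f : LaurentSeries F} (hf : HasValue f 1) :
    ∃ s : LaurentSeries F, HasValue s 1 ∧ s ^ 2 = f := by
  obtain ⟨u, rfl, hu⟩ := hf
  have hv : PowerSeries.constantCoeff (u - 1) = 0 := by simp [hu]
  have ha : PowerSeries.HasSubst (u - 1) := PowerSeries.HasSubst.of_constantCoeff_zero' hv
  set φ := PowerSeries.substAlgHom (R := F) ha with hφ
  have hX : φ PowerSeries.X = u - 1 := by
    rw [hφ, PowerSeries.coe_substAlgHom, PowerSeries.subst_X ha]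
  set r := φ (PowerSeries.binomialSeries F (1 / 2 : F)) with hr
  have hr2 : r ^ 2 = u := by
    rw [hr, ← map_pow, sq, ← PowerSeries.binomialSeries_add,
      show (1 / 2 : F) + 1 / 2 = ((1 : ℕ) : F) by norm_num, PowerSeries.binomialSeries_nat,
      pow_one, map_add, map_one, hX, add_sub_cancel]
  set c := PowerSeries.constantCoeff r with hc
  have hc2 : c ^ 2 = 1 := by rw [hc, ← map_pow, hr2, hu]
  refine ⟨HahnSeries.ofPowerSeries ℤ F (PowerSeries.C c * r), ⟨_, rfl, ?_⟩, ?_⟩
  · rw [map_mul, PowerSeries.constantCoeff_C, ← hc, ← sq, hc2]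
  · rw [← map_pow, mul_pow, ← map_pow, hc2, map_one, one_mul, hr2]

theorem sqrt_unique [CharZero F] {s s' : LaurentSeries F} (h : HasValue s 1) (h' : HasValue s' 1)
    (he : s ^ 2 = s' ^ 2) : s = s' := by
  rcases sq_eq_sq_iff_eq_or_eq_neg.mp he with e | e
  · exact e
  · exact absurd (h.unique (e ▸ h'.neg)) (by norm_num)

end Fermat.Agent.Isogeny
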