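import Mathlib

/-!
# Field identities for Vélu's expansions at the origin
-/

namespace Fermat.Agent.Isogeny

variable {K : Type*} [Field K]

theorem velu_term₁ {t X a b : K} (ht : t ≠ 0) (hu : 1 - X * t ^ 2 ≠ 0) :
    a / ((t ^ 2)⁻¹ - X) + b / ((t ^ 2)⁻¹ - X) ^ 2 =
      a * t ^ 2 + (a * X + b) * t ^ 4 +
        t ^ 6 * (a * X ^ 2 / (1 - X * t ^ 2) + b * X * (2 - X * t ^ 2) / (1 - X * t ^ 2) ^ 2) := by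
  have hd : (t ^ 2)⁻¹ - X = (1 - X * t ^ 2) / t ^ 2 := by field_simp
  rw [hd, div_div_eq_mul_div, div_pow, div_div_eq_mul_div]
  generalize hs : 1 - X * t ^ 2 = u at hu ⊢
  field_simp
  subst hs
  ring

theorem velu_term₂ {t X a b : K} (ht : t ≠ 0) (hu : 1 - X * t ^ 2 ≠ 0) :
    a / ((t ^ 2)⁻¹ - X) ^ 2 + 2 * b / ((t ^ 2)⁻¹ - X) ^ 3 =
      a * t ^ 4 + 2 * (a * X + b) * t ^ 6 +
        t ^ 8 * (a * (3 * X ^ 2 - 2 * X ^ 3 * t ^ 2) / (1 - X * t ^ 2) ^ 2 +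
          2 * b * X * (3 - 3 * (X * t ^ 2) + (X * t ^ 2) ^ 2) / (1 - X * t ^ 2) ^ 3) := by
  have hd : (t ^ 2)⁻¹ - X = (1 - X * t ^ 2) / t ^ 2 := by field_simp
  rw [hd, div_pow, div_pow, div_div_eq_mul_div, div_div_eq_mul_div]
  generalize hs : 1 - X * t ^ 2 = u at hu ⊢
  field_simp
  subst hs
  ring

theorem near_origin_addX {t r X Y A B : K} (ht : t ≠ 0) (hu : 1 - X * t ^ 2 ≠ 0)
    (hr : r ^ 2 = 1 + A * t ^ 4 + B * t ^ 6) (hY : Y ^ 2 = X ^ 3 + A * X + B) :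
    ((r / t ^ 3 - Y) / ((t ^ 2)⁻¹ - X)) ^ 2 - (t ^ 2)⁻¹ - X =
      ((X + A * t ^ 2) * (1 + X * t ^ 2) + 2 * B * t ^ 4 - 2 * Y * (t * r)) /
        (1 - X * t ^ 2) ^ 2 := by
  have hd : (t ^ 2)⁻¹ - X = (1 - X * t ^ 2) / t ^ 2 := by field_simp
  rw [hd, div_div_eq_mul_div, div_pow]
  generalize hs : 1 - X * t ^ 2 = u at hu ⊢
  field_simp
  subst hs
  linear_combination hr + t ^ 6 * hY

theorem defect_origin {t r A B c₁ c₂ e₁ e₂ : K} (ht : t ≠ 0)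
    (hr : r ^ 2 = 1 + A * t ^ 4 + B * t ^ 6) :
    let p := -c₁ - 2 * c₂ * t ^ 2 - (t ^ 2) ^ 2 * e₂
    let q := c₁ + c₂ * t ^ 2 + (t ^ 2) ^ 2 * e₁
    let w := A + B * t ^ 2
    ((1 - c₁ * t ^ 4 - 2 * c₂ * t ^ 6 - t ^ 8 * e₂) * (r / t ^ 3)) ^ 2 -
        (((t ^ 2)⁻¹ + c₁ * t ^ 2 + c₂ * t ^ 4 + t ^ 6 * e₁) ^ 3 +
          (A - 5 * c₁) * ((t ^ 2)⁻¹ + c₁ * t ^ 2 + c₂ * t ^ 4 + t ^ 6 * e₁) + (B - 7 * c₂)) =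
      ((-2 * e₂ - 3 * e₁) + p ^ 2 + 2 * p * w + ((t ^ 2) ^ 2 * p ^ 2) * w - 3 * q ^ 2 - (t ^ 2) ^ 2 * q ^ 3
        - (A - 5 * c₁) * q) * t ^ 2 := by
  intro p q w
  simp only [p, q, w]
  field_simp
  rw [hr]
  ring

end Fermat.Agent.Isogeny
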