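import Mathlib
import Fermat.Agent.Isogeny.Basic

/-!
# The logarithmic derivative on a short Weierstrass curve with constant coefficients

For a derivation `D` of a field `L` killing `A` and `B`, the map `P ↦ D x / (2 y)` on the points
of `y² = x³ + A x + B` over `L` is a homomorphism to `(L, +)`.
-/

open WeierstrassCurve WeierstrassCurve.Affine

namespace Fermat.Agent.Isogeny

variable {F L : Type*} [Field F] [Field L] [Algebra F L] {A B : L}

/-- `P ↦ D x / (2 y)`. -/
def mu (D : Derivation F L L) (P : (shortCurve A B).toAffine.Point) : L :=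
  match P with
  | .zero => 0
  | .some x y _ => D x / (2 * y)

theorem mu_some (D : Derivation F L L) {x y : L} (h : (shortCurve A B).toAffine.Nonsingular x y) :
    mu D (Point.some x y h) = D x / (2 * y) := rfl

theorem mu_zero (D : Derivation F L L) : mu D (0 : (shortCurve A B).toAffine.Point) = 0 := rfl

variable (D : Derivation F L L) (hA : D A = 0) (hB : D B = 0)

include hA hB in
theorem deriv_sq_eq {x y : L} (h : (shortCurve A B).toAffine.Equation x y) :
    2 * y * D y = (3 * x ^ 2 + A) * D x := by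
  have := congrArg D ((short_equation_iff x y).mp h)
  simp only [map_add, Derivation.leibniz, Derivation.leibniz_pow, smul_eq_mul, hA, hB,
    nsmul_eq_mul] at this
  push_cast at this
  linear_combination this

variable [NeZero (2 : L)]

include hA hB in
theorem deriv_eq_mu {x y : L} (h : (shortCurve A B).toAffine.Nonsingular x y) :
    D x = 2 * y * mu D (Point.some x y h) ∧ D y = (3 * x ^ 2 + A) * mu D (Point.some x y h) := by
  have h2 := NeZero.ne (2 : L)
  have hd := deriv_sq_eq D hA hB h.left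
  rw [mu_some]
  by_cases hy : y = 0
  · subst hy
    have hf : 3 * x ^ 2 + A ≠ 0 := by
      rcases ((nonsingular_iff x 0).mp h).2 with hx | hy'
      · intro he; apply hx; simp; linear_combination -he
      · simp at hy'
    have hx : D x = 0 := by
      simp only [mul_zero, zero_mul] at hd
      exact (mul_eq_zero.mp hd.symm).resolve_left hf
    simp [hx]
  · constructor
    · field_simp
    · field_simp
      linear_combination hd

variable [DecidableEq L]

include hA hB in
theorem mu_add (P Q : (shortCurve A B).toAffine.Point) :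
    mu D (P + Q) = mu D P + mu D Q := by
  rcases P with _ | ⟨x₁, y₁, h₁⟩
  · exact ((congrArg (mu D) (zero_add Q)).trans (zero_add (mu D Q)).symm)
  rcases Q with _ | ⟨x₂, y₂, h₂⟩
  · exact ((congrArg (mu D) (add_zero _)).trans (add_zero _).symm)
  have h2 := NeZero.ne (2 : L)
  by_cases hxy : x₁ = x₂ ∧ y₁ = (shortCurve A B).toAffine.negY x₂ y₂
  · rw [Point.add_of_Y_eq hxy.1 hxy.2, mu_zero, mu_some, mu_some, hxy.1, hxy.2, short_negY,
      mul_neg, div_neg, neg_add_cancel]
  set m₁ := mu D (Point.some x₁ y₁ h₁)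
  set m₂ := mu D (Point.some x₂ y₂ h₂)
  obtain ⟨hx₁, hy₁⟩ := deriv_eq_mu D hA hB h₁
  obtain ⟨hx₂, hy₂⟩ := deriv_eq_mu D hA hB h₂
  rw [Point.add_some hxy]
  set l := (shortCurve A B).toAffine.slope x₁ x₂ y₁ y₂ with hl
  set x₃ := (shortCurve A B).toAffine.addX x₁ x₂ l with hx₃
  set y₃ := (shortCurve A B).toAffine.addY x₁ x₂ y₁ l with hy₃
  have ex₃ : x₃ = l ^ 2 - x₁ - x₂ := by rw [hx₃]; simp [addX]
  have ey₃ : y₃ = -(l * (x₃ - x₁) + y₁) := by
    rw [hy₃, addY, short_negY, negAddY, ← hx₃]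
  -- the two facts: `Dl` and the coefficient `A` in terms of `l`, `x₁`, `x₂`, `y₁`
  have key : D l = (x₁ - x₃) * m₁ + (x₂ - x₃) * m₂ ∧
      A = l * (2 * y₁ - l * (x₁ - x₂)) - x₁ ^ 2 - x₁ * x₂ - x₂ ^ 2 := by
    have e₁ := (short_equation_iff x₁ y₁).mp h₁.left
    have e₂ := (short_equation_iff x₂ y₂).mp h₂.left
    by_cases hx : x₁ = x₂
    · subst hx
      obtain rfl : y₁ = y₂ := Y_eq_of_Y_ne h₁.left h₂.left rfl fun h => hxy ⟨rfl, h⟩
      have hy : y₁ ≠ 0 := fun h0 => hxy ⟨rfl, by rw [short_negY, h0, neg_zero]⟩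
      have hlv : 2 * y₁ * l = 3 * x₁ ^ 2 + A := by
        have hne : y₁ - -y₁ ≠ 0 := by
          rw [sub_neg_eq_add, ← two_mul]; exact mul_ne_zero h2 hy
        rw [hl, slope_of_Y_ne rfl (fun h => hxy ⟨rfl, h⟩), short_negY,
          show y₁ - -y₁ = 2 * y₁ by ring, mul_div_cancel₀ _ (mul_ne_zero h2 hy)]
        simp
      have hAv : A = 2 * y₁ * l - 3 * x₁ ^ 2 := by linear_combination -hlv
      refine ⟨?_, by linear_combination hAv⟩
      have hd := congrArg D hlv
      simp only [map_add, Derivation.leibniz, Derivation.leibniz_pow, smul_eq_mul, hA, hy₁, hx₁,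
        nsmul_eq_mul] at hd
      push_cast at hd
      have hD2 : D (2 : L) = 0 := by exact_mod_cast D.map_natCast 2
      have hD3 : D (3 : L) = 0 := by exact_mod_cast D.map_natCast 3
      rw [hD2, hD3] at hd
      refine mul_left_cancel₀ (mul_ne_zero h2 hy) ?_
      rw [ex₃]
      linear_combination hd - 2 * l * m₁ * hAv
    · have hlv : l * (x₁ - x₂) = y₁ - y₂ := by
        rw [hl, slope_of_X_ne hx, div_mul_cancel₀ _ (sub_ne_zero.mpr hx)]
      have hy₂v : y₂ = y₁ - l * (x₁ - x₂) := by linear_combination hlv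
      have hAv : A = l * (2 * y₁ - l * (x₁ - x₂)) - x₁ ^ 2 - x₁ * x₂ - x₂ ^ 2 := by
        refine mul_left_cancel₀ (sub_ne_zero.mpr hx) ?_
        rw [hy₂v] at e₂
        linear_combination e₂ - e₁
      refine ⟨?_, hAv⟩
      have hd := congrArg D hlv
      simp only [map_sub, Derivation.leibniz, smul_eq_mul, hy₁, hy₂, hx₁, hx₂] at hd
      refine mul_left_cancel₀ (sub_ne_zero.mpr hx) ?_
      rw [ex₃]
      linear_combination hd + (m₁ - m₂) * hAv + 2 * l * m₂ * hy₂v
  obtain ⟨hDl, hAv⟩ := key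
  have hy₂v : y₂ = y₁ - l * (x₁ - x₂) := by
    by_cases hx : x₁ = x₂
    · subst hx
      rw [sub_self, mul_zero, sub_zero]
      exact (Y_eq_of_Y_ne h₁.left h₂.left rfl fun h => hxy ⟨rfl, h⟩).symm
    · have : l * (x₁ - x₂) = y₁ - y₂ := by
        rw [hl, slope_of_X_ne hx, div_mul_cancel₀ _ (sub_ne_zero.mpr hx)]
      linear_combination this
  have hDx₃ : D x₃ = 2 * y₃ * (m₁ + m₂) := by
    rw [ey₃, ex₃]
    simp only [map_sub, Derivation.leibniz_pow, smul_eq_mul, hDl, hx₁, hx₂, nsmul_eq_mul]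
    push_cast
    rw [ex₃]
    linear_combination (-2 * m₂) * hy₂v
  have hDy₃ : D y₃ = (3 * x₃ ^ 2 + A) * (m₁ + m₂) := by
    rw [ey₃]
    simp only [map_neg, map_add, map_sub, Derivation.leibniz, smul_eq_mul, hDl, hDx₃, hy₁, hx₁]
    rw [ey₃, ex₃]
    linear_combination (-(2 * m₁ + m₂)) * hAv
  obtain ⟨hm, hm'⟩ := deriv_eq_mu D hA hB (nonsingular_add h₁ h₂ hxy)
  by_cases hy : y₃ = 0
  · have hf : 3 * x₃ ^ 2 + A ≠ 0 := by
      intro he
      rcases ((nonsingular_iff x₃ y₃).mp
        (nonsingular_add h₁ h₂ hxy)).2 with hx | hy'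
      · apply hx; simp [hy]; linear_combination -he
      · exact hy' (by simp [hy])
    exact mul_left_cancel₀ hf (hm'.symm.trans hDy₃)
  · exact mul_left_cancel₀ (mul_ne_zero h2 hy) (hm.symm.trans hDx₃)

include hA hB in
theorem mu_sub (P Q : (shortCurve A B).toAffine.Point) :
    mu D (P - Q) = mu D P - mu D Q :=
  eq_sub_of_add_eq (by rw [← mu_add D hA hB, sub_add_cancel])

end Fermat.Agent.Isogeny
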