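import Mathlib
import Fermat.Agent.Isogeny.Basic
import Fermat.Agent.Isogeny.LogDeriv

/-!
# Vélu's formula for a subgroup without points of order two
-/

open WeierstrassCurve WeierstrassCurve.Affine Polynomial

noncomputable section

namespace Fermat.Agent.Isogeny

/-- The `y`-coordinate, with `0` at the origin. -/
def yCoord {F : Type*} [Field F] {W : WeierstrassCurve F} (P : W.toAffine.Point) : F :=
  match P with
  | .zero => 0
  | .some _ y _ => y

theorem eq_or_eq_neg_of_xCoord_eq {F : Type*} [Field F] [DecidableEq F] {W : WeierstrassCurve F}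
    {P Q : W.toAffine.Point} (hP : P ≠ 0) (hQ : Q ≠ 0) (h : xCoord P = xCoord Q) :
    P = Q ∨ P = -Q := by
  rcases P with _ | ⟨x₁, y₁, h₁⟩
  · exact absurd rfl hP
  rcases Q with _ | ⟨x₂, y₂, h₂⟩
  · exact absurd rfl hQ
  simp only [xCoord_some] at h
  rcases Y_eq_of_X_eq h₁.left h₂.left h with e | e
  · left; simp [h, e]
  · right; simp [Point.neg_some, h, e]

/-- A finite subgroup of `y² = x³ + A x + B` without elements of order two. -/
structure KernelData {F : Type*} [Field F] [DecidableEq F] (A B : F) where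
  /-- The elements of the subgroup. -/
  pts : Finset (shortCurve A B).toAffine.Point
  zero_mem : (0 : (shortCurve A B).toAffine.Point) ∈ pts
  add_mem : ∀ P Q, P ∈ pts → Q ∈ pts → P + Q ∈ pts
  neg_mem : ∀ P, P ∈ pts → -P ∈ pts
  no_two : ∀ P, P ∈ pts → P + P = 0 → P = 0

namespace KernelData

variable {F : Type*} [Field F] [DecidableEq F] {A B : F} (N : KernelData A B)

/-- The nonzero elements. -/
def nz : Finset (shortCurve A B).toAffine.Point := N.pts.erase 0

theorem mem_nz {Q : (shortCurve A B).toAffine.Point} : Q ∈ N.nz ↔ Q ≠ 0 ∧ Q ∈ N.pts := by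
  simp [nz]

theorem neg_mem_nz {Q : (shortCurve A B).toAffine.Point} (h : Q ∈ N.nz) : -Q ∈ N.nz := by
  rw [mem_nz] at h ⊢
  exact ⟨neg_ne_zero.mpr h.1, N.neg_mem _ h.2⟩

theorem exists_some {Q : (shortCurve A B).toAffine.Point} (h : Q ∈ N.nz) :
    ∃ x y hxy, Q = Point.some x y hxy ∧ y ≠ 0 ∧ y ^ 2 = x ^ 3 + A * x + B := by
  rw [mem_nz] at h
  rcases Q with _ | ⟨x, y, hxy⟩
  · exact absurd rfl h.1
  · refine ⟨x, y, hxy, rfl, ?_, (short_equation_iff x y).mp hxy.left⟩
    rintro rfl
    exact h.1 (N.no_two _ h.2 (Point.add_self_of_Y_eq (by rw [short_negY, neg_zero])))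

theorem yCoord_ne_zero {Q : (shortCurve A B).toAffine.Point} (h : Q ∈ N.nz) : yCoord Q ≠ 0 := by
  obtain ⟨x, y, hxy, rfl, hy, -⟩ := N.exists_some h
  exact hy

/-- The coefficient of `1/(X - x_Q)`. -/
def aC (Q : (shortCurve A B).toAffine.Point) : F := 3 * xCoord Q ^ 2 + A

/-- The coefficient of `1/(X - x_Q)²`. -/
def bC (Q : (shortCurve A B).toAffine.Point) : F := 2 * yCoord Q ^ 2

/-- The abscissas of the kernel. -/
def xs : Finset F := N.nz.image xCoord

theorem xCoord_mem_xs {Q : (shortCurve A B).toAffine.Point} (h : Q ∈ N.nz) : xCoord Q ∈ N.xs :=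
  Finset.mem_image_of_mem _ h

/-- `∏ (X - s)` over the abscissas. -/
def den : F[X] := ∏ s ∈ N.xs, (X - C s)

/-- `∏ (X - s')` over the abscissas other than `s`. -/
def denErase (s : F) : F[X] := ∏ s' ∈ N.xs.erase s, (X - C s')

theorem mul_denErase {s : F} (h : s ∈ N.xs) : (X - C s) * N.denErase s = N.den :=
  Finset.mul_prod_erase _ (fun s' => X - C s') h

/-- The numerator of the `x`-map. -/
def num : F[X] :=
  X * N.den ^ 2 +
    ∑ Q ∈ N.nz,
      (C (aC Q) * N.den * N.denErase (xCoord Q) + C (bC Q) * N.denErase (xCoord Q) ^ 2)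

/-- The numerator of the derivative of the `x`-map. -/
def dnum : F[X] := derivative N.num * N.den - 2 * N.num * derivative N.den

/-- The new `A`. -/
def A' : F := A - 5 * ∑ Q ∈ N.nz, aC Q

/-- The new `B`. -/
def B' : F := B - 7 * ∑ Q ∈ N.nz, (aC Q * xCoord Q + bC Q)

theorem den_monic : N.den.Monic := monic_prod_of_monic _ _ fun s _ => monic_X_sub_C s

theorem den_ne_zero : N.den ≠ 0 := N.den_monic.ne_zero

theorem eval_den_eq_zero_iff {z : F} : N.den.eval z = 0 ↔ z ∈ N.xs := by
  simp [den, eval_prod, Finset.prod_eq_zero_iff, sub_eq_zero]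

theorem eval_num_xs [CharZero F] {Q : (shortCurve A B).toAffine.Point} (hQ : Q ∈ N.nz) :
    N.num.eval (xCoord Q) ≠ 0 := by
  set s := xCoord Q with hs
  have hd : N.den.eval s = 0 := N.eval_den_eq_zero_iff.mpr (N.xCoord_mem_xs hQ)
  have he : (N.denErase s).eval s ≠ 0 := by
    simp [denErase, eval_prod, Finset.prod_eq_zero_iff, sub_eq_zero]
  have hother : ∀ R ∈ N.nz, xCoord R ≠ s → (N.denErase (xCoord R)).eval s = 0 := by
    intro R _ hne
    simp only [denErase, eval_prod, eval_sub, eval_X, eval_C, Finset.prod_eq_zero_iff]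
    exact ⟨s, Finset.mem_erase.mpr ⟨hne.symm, N.xCoord_mem_xs hQ⟩, sub_self s⟩
  have hb : ∀ R ∈ N.nz, xCoord R = s → bC R = bC Q := by
    intro R hR he'
    rcases eq_or_eq_neg_of_xCoord_eq (N.mem_nz.mp hR).1 (N.mem_nz.mp hQ).1 he' with e | e
    · rw [e]
    · obtain ⟨x, y, hxy, rfl, -, -⟩ := N.exists_some hQ
      rw [e, Point.neg_some, bC, bC]
      simp only [yCoord, short_negY]
      ring
  rw [num, eval_add, eval_mul, eval_pow, hd, zero_pow two_ne_zero, mul_zero, zero_add,
    eval_finsetSum]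
  have hterm : ∀ R ∈ N.nz,
      (C (aC R) * N.den * N.denErase (xCoord R) + C (bC R) * N.denErase (xCoord R) ^ 2).eval s =
        if xCoord R = s then bC Q * (N.denErase s).eval s ^ 2 else 0 := by
    intro R hR
    simp only [eval_add, eval_mul, eval_C, eval_pow, hd, mul_zero, zero_mul, zero_add]
    split
    · next h => rw [hb R hR h, h]
    · next h => rw [hother R hR h, zero_pow two_ne_zero, mul_zero]
  rw [Finset.sum_congr rfl hterm, ← Finset.sum_filter, Finset.sum_const, nsmul_eq_mul]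
  refine mul_ne_zero ?_ (mul_ne_zero ?_ (pow_ne_zero 2 he))
  · exact Nat.cast_ne_zero.mpr
      (Finset.card_ne_zero.mpr ⟨Q, Finset.mem_filter.mpr ⟨hQ, hs.symm⟩⟩)
  · exact mul_ne_zero two_ne_zero (pow_ne_zero 2 (N.yCoord_ne_zero hQ))

section Over

variable {L : Type*} [Field L] [Algebra F L]

/-- The `x`-map. -/
def Rx (x : L) : L := aeval x N.num / aeval x N.den ^ 2

/-- The derivative of the `x`-map. -/
def R1 (x : L) : L := aeval x N.dnum / aeval x N.den ^ 3

/-- `x` is the abscissa of no kernel point. -/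
def NotKer (x : L) : Prop := ∀ s ∈ N.xs, x ≠ algebraMap F L s

variable {N}

theorem aeval_den_ne_zero {x : L} (h : N.NotKer x) : aeval x N.den ≠ 0 := by
  simp only [den, map_prod, map_sub, aeval_X, aeval_C, Finset.prod_ne_zero_iff, sub_ne_zero]
  exact h

theorem Rx_eq_sum {x : L} (h : N.NotKer x) :
    N.Rx x = x + ∑ Q ∈ N.nz,
      (algebraMap F L (aC Q) / (x - algebraMap F L (xCoord Q)) +
        algebraMap F L (bC Q) / (x - algebraMap F L (xCoord Q)) ^ 2) := by
  have hd := aeval_den_ne_zero h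
  rw [Rx, num, map_add, map_mul, map_pow, aeval_X, map_sum, add_div,
    mul_div_assoc, div_self (pow_ne_zero 2 hd), mul_one, Finset.sum_div]
  refine congrArg (x + ·) (Finset.sum_congr rfl fun Q hQ => ?_)
  have hs : x - algebraMap F L (xCoord Q) ≠ 0 :=
    sub_ne_zero.mpr (h _ (N.xCoord_mem_xs hQ))
  have he : aeval x (N.denErase (xCoord Q)) ≠ 0 := by
    simp only [denErase, map_prod, map_sub, aeval_X, aeval_C, Finset.prod_ne_zero_iff,
      sub_ne_zero]
    exact fun s hs' => h s (Finset.mem_of_mem_erase hs')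
  have hm := congrArg (aeval x) (N.mul_denErase (N.xCoord_mem_xs hQ))
  simp only [map_mul, map_sub, aeval_X, aeval_C] at hm
  simp only [map_add, map_mul, map_pow, aeval_C]
  rw [← hm]
  field_simp

variable (D : Derivation F L L)

omit [DecidableEq F] in
theorem deriv_aeval (p : F[X]) (x : L) : D (aeval x p) = aeval x (derivative p) * D x := by
  rw [Derivation.map_aeval, smul_eq_mul]

theorem deriv_Rx {x : L} (h : N.NotKer x) : D (N.Rx x) = N.R1 x * D x := by
  have hd := aeval_den_ne_zero h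
  rw [Rx, R1, Derivation.leibniz_div, Derivation.leibniz_pow, deriv_aeval, deriv_aeval, dnum]
  simp only [map_sub, map_mul, smul_eq_mul, nsmul_eq_mul, map_ofNat]
  push_cast
  field_simp

theorem R1_eq_sum {x : L} (hx : D x ≠ 0) (h : N.NotKer x) :
    N.R1 x = 1 - ∑ Q ∈ N.nz,
      (algebraMap F L (aC Q) / (x - algebraMap F L (xCoord Q)) ^ 2 +
        2 * algebraMap F L (bC Q) / (x - algebraMap F L (xCoord Q)) ^ 3) := by
  refine mul_right_cancel₀ hx ?_
  rw [← deriv_Rx D h, Rx_eq_sum h, map_add, map_sum, sub_mul, one_mul, Finset.sum_mul,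
    sub_eq_add_neg (D x), ← Finset.sum_neg_distrib]
  refine congrArg (D x + ·) (Finset.sum_congr rfl fun Q hQ => ?_)
  have hs : x - algebraMap F L (xCoord Q) ≠ 0 :=
    sub_ne_zero.mpr (h _ (N.xCoord_mem_xs hQ))
  simp only [map_add, Derivation.leibniz_div, Derivation.leibniz_pow, map_sub,
    Derivation.map_algebraMap, smul_eq_mul, nsmul_eq_mul, mul_zero, sub_zero]
  push_cast
  field_simp
  ring

end Over

section Invariance

variable {L : Type*} [Field L] [DecidableEq L] [Algebra F L]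

/-- The curve over `L`. -/
abbrev curveL (A B : F) (L : Type*) [Field L] [Algebra F L] : WeierstrassCurve L :=
  shortCurve (algebraMap F L A) (algebraMap F L B)

/-- `E(F) → E(L)`. -/
def inclusion : (shortCurve A B).toAffine.Point →+ (curveL A B L).toAffine.Point :=
  coordMap (algebraMap F L) (short_map _)

/-- `∑ (x(P + Q) - x(Q))`. -/
def xSum (P : (curveL A B L).toAffine.Point) : L :=
  ∑ Q ∈ N.pts, (xCoord (P + inclusion Q) - algebraMap F L (xCoord Q))

theorem xSum_add {Q₀ : (shortCurve A B).toAffine.Point} (h : Q₀ ∈ N.pts)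
    (P : (curveL A B L).toAffine.Point) : N.xSum (P + inclusion Q₀) = N.xSum P := by
  simp only [xSum, Finset.sum_sub_distrib]
  congr 1
  refine Finset.sum_bij' (fun Q _ => Q₀ + Q) (fun Q _ => Q - Q₀)
    (fun Q hQ => N.add_mem _ _ h hQ)
    (fun Q hQ => by rw [sub_eq_add_neg]; exact N.add_mem _ _ hQ (N.neg_mem _ h))
    (fun Q _ => add_sub_cancel_left Q₀ Q) (fun Q _ => add_sub_cancel Q₀ Q) fun Q _ => ?_
  rw [map_add, add_assoc]

variable [NeZero (2 : L)]

theorem xCoord_pair {x y : L} (hP : (curveL A B L).toAffine.Nonsingular x y)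
    {Q : (shortCurve A B).toAffine.Point} (hQ : Q ∈ N.nz)
    (hx : x ≠ algebraMap F L (xCoord Q)) :
    xCoord (Point.some x y hP + inclusion Q) - algebraMap F L (xCoord Q) +
        (xCoord (Point.some x y hP + inclusion (-Q)) - algebraMap F L (xCoord (-Q))) =
      2 * (algebraMap F L (aC Q) / (x - algebraMap F L (xCoord Q)) +
        algebraMap F L (bC Q) / (x - algebraMap F L (xCoord Q)) ^ 2) := by
  obtain ⟨u, v, huv, rfl, -, he⟩ := N.exists_some hQ
  rw [xCoord_neg, xCoord_some, Point.neg_some, inclusion, coordMap_some, coordMap_some]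
  simp only [short_negY, map_neg]
  rw [xCoord_some] at hx
  rw [Point.add_some fun h => hx h.1, Point.add_some fun h => hx h.1, xCoord_some, xCoord_some]
  have e := (short_equation_iff x y).mp hP.left
  have e' := congrArg (algebraMap F L) he
  simp only [map_add, map_mul, map_pow] at e'
  simp only [slope_of_X_ne hx, addX, aC, bC, yCoord, xCoord_some, map_add, map_mul, map_pow,
    map_ofNat]
  have hd := sub_ne_zero.mpr hx
  field_simp
  linear_combination 2 * e - 2 * e'

theorem xSum_some {x y : L} (hP : (curveL A B L).toAffine.Nonsingular x y) (hx : N.NotKer x) :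
    N.xSum (Point.some x y hP) = N.Rx x := by
  set t : (shortCurve A B).toAffine.Point → L := fun Q =>
    xCoord (Point.some x y hP + inclusion Q) - algebraMap F L (xCoord Q) with ht
  have h0 : t 0 = x := by
    simp only [ht, map_zero, add_zero, xCoord_some, xCoord_zero, sub_zero]
  have hsplit : N.xSum (Point.some x y hP) = x + ∑ Q ∈ N.nz, t Q := by
    have he : t 0 + ∑ Q ∈ N.pts.erase 0, t Q = ∑ Q ∈ N.pts, t Q :=
      Finset.add_sum_erase _ t N.zero_mem
    rw [h0] at he
    exact he.symm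
  have hneg : ∑ Q ∈ N.nz, t (-Q) = ∑ Q ∈ N.nz, t Q :=
    Finset.sum_bij' (fun Q _ => -Q) (fun Q _ => -Q) (fun Q hQ => N.neg_mem_nz hQ)
      (fun Q hQ => N.neg_mem_nz hQ) (fun Q _ => neg_neg Q) (fun Q _ => neg_neg Q) fun Q _ => rfl
  rw [hsplit, Rx_eq_sum hx]
  refine congrArg (x + ·) (mul_left_cancel₀ (NeZero.ne (2 : L)) ?_)
  rw [two_mul, Finset.mul_sum]
  nth_rewrite 2 [← hneg]
  rw [← Finset.sum_add_distrib]
  exact Finset.sum_congr rfl fun Q hQ => N.xCoord_pair hP hQ (hx _ (N.xCoord_mem_xs hQ))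

variable (D : Derivation F L L)

omit [DecidableEq L] in
theorem notKer_of_deriv_ne_zero {x : L} (hx : D x ≠ 0) : N.NotKer x := fun s _ e =>
  hx (e ▸ D.map_algebraMap s)

theorem mu_inclusion (Q : (shortCurve A B).toAffine.Point) :
    mu D (inclusion (L := L) Q) = 0 := by
  cases Q with
  | zero => rfl
  | some x y h => rw [inclusion, coordMap_some, mu_some, D.map_algebraMap, zero_div]

omit [DecidableEq F] [DecidableEq L] in
theorem exists_of_mu_ne_zero {P : (curveL A B L).toAffine.Point} (h : mu D P ≠ 0) :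
    ∃ x y hxy, P = Point.some x y hxy ∧ D x ≠ 0 := by
  rcases P with _ | ⟨x, y, hxy⟩
  · exact absurd rfl h
  · exact ⟨x, y, hxy, rfl, fun e => h (by rw [mu_some, e, zero_div])⟩

/-- A translate by a kernel point of a moving point has the same image. -/
theorem translate {x y x₁ y₁ : L} {hP : (curveL A B L).toAffine.Nonsingular x y}
    {hP₁ : (curveL A B L).toAffine.Nonsingular x₁ y₁} (hx : D x ≠ 0)
    {Q : (shortCurve A B).toAffine.Point} (hQ : Q ∈ N.pts)
    (h : Point.some x y hP + inclusion Q = Point.some x₁ y₁ hP₁) :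
    D x₁ ≠ 0 ∧ N.Rx x₁ = N.Rx x ∧ N.R1 x₁ * y₁ = N.R1 x * y := by
  have hA : D (algebraMap F L A) = 0 := D.map_algebraMap A
  have hB : D (algebraMap F L B) = 0 := D.map_algebraMap B
  have hm : mu D (Point.some x₁ y₁ hP₁) = mu D (Point.some x y hP) := by
    rw [← h, mu_add D hA hB, mu_inclusion, add_zero]
  have hy : y ≠ 0 := by
    rintro rfl
    exact hx (by rw [(deriv_eq_mu D hA hB hP).1, mul_zero, zero_mul])
  have hm0 : mu D (Point.some x y hP) ≠ 0 := by
    rw [mu_some]; exact div_ne_zero hx (mul_ne_zero (NeZero.ne (2 : L)) hy)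
  have hx₁ : D x₁ ≠ 0 := by
    intro e
    rw [mu_some D hP₁, e, zero_div] at hm
    exact hm0 hm.symm
  have hk := N.notKer_of_deriv_ne_zero D hx
  have hk₁ := N.notKer_of_deriv_ne_zero D hx₁
  have hR : N.Rx x₁ = N.Rx x := by
    rw [← N.xSum_some hP₁ hk₁, ← h, N.xSum_add hQ, N.xSum_some hP hk]
  refine ⟨hx₁, hR, ?_⟩
  have hd := congrArg D hR
  rw [deriv_Rx D hk₁, deriv_Rx D hk, (deriv_eq_mu D hA hB hP₁).1, (deriv_eq_mu D hA hB hP).1,
    hm] at hd
  refine mul_right_cancel₀ (mul_ne_zero (NeZero.ne (2 : L)) hm0) ?_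
  linear_combination hd

end Invariance

end KernelData

end Fermat.Agent.Isogeny
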