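import Mathlib
import Fermat.Agent.Isogeny.VeluData
import Fermat.Agent.Isogeny.Laurent
import Fermat.Agent.Isogeny.VeluAlgebra

/-!
# Vélu's identity, and nonsingularity of the target curve
-/

open WeierstrassCurve WeierstrassCurve.Affine Polynomial

noncomputable section

namespace Fermat.Agent.Isogeny

namespace KernelData

-- as in `Laurent`, the module structure coming from the algebra structure
attribute [local instance 10000] Algebra.toModule

variable {F : Type*} [Field F] [CharZero F] {A B : F}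

instance : NeZero (2 : LaurentSeries F) := ⟨by
  exact_mod_cast (HasValue.ofNat (F := F) 2).ne_zero two_ne_zero⟩

/-- A series with a value. -/
def Bdd (f : LaurentSeries F) : Prop := ∃ a, HasValue f a

omit [CharZero F] in
theorem Bdd.of {f : LaurentSeries F} {a : F} (h : HasValue f a) : Bdd f := ⟨a, h⟩

omit [CharZero F] in
theorem Bdd.add {f g : LaurentSeries F} (hf : Bdd f) (hg : Bdd g) : Bdd (f + g) :=
  ⟨_, hf.choose_spec.add hg.choose_spec⟩

omit [CharZero F] in
theorem Bdd.sub {f g : LaurentSeries F} (hf : Bdd f) (hg : Bdd g) : Bdd (f - g) :=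
  ⟨_, hf.choose_spec.sub hg.choose_spec⟩

omit [CharZero F] in
theorem Bdd.mul {f g : LaurentSeries F} (hf : Bdd f) (hg : Bdd g) : Bdd (f * g) :=
  ⟨_, hf.choose_spec.mul hg.choose_spec⟩

omit [CharZero F] in
theorem Bdd.pow {f : LaurentSeries F} (hf : Bdd f) (n : ℕ) : Bdd (f ^ n) :=
  ⟨_, hf.choose_spec.pow n⟩

omit [CharZero F] in
theorem Bdd.const (c : F) : Bdd (cst c) := ⟨_, HasValue.const c⟩

omit [CharZero F] in
theorem Bdd.ofNat (n : ℕ) [n.AtLeastTwo] : Bdd (OfNat.ofNat n : LaurentSeries F) :=
  ⟨_, HasValue.ofNat n⟩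

omit [CharZero F] in
theorem Bdd.sum {ι : Type*} (s : Finset ι) {u : ι → LaurentSeries F} (h : ∀ i ∈ s, Bdd (u i)) :
    Bdd (∑ i ∈ s, u i) := by
  classical
  induction s using Finset.induction_on with
  | empty => exact ⟨0, by simpa using HasValue.zero⟩
  | insert i s hi ih =>
    rw [Finset.sum_insert hi]
    exact (h i (Finset.mem_insert_self i s)).add
      (ih fun j hj => h j (Finset.mem_insert_of_mem hj))

omit [CharZero F] in
theorem Bdd.param : Bdd (tt ^ 2 : LaurentSeries F) := ⟨_, HasValue.param.pow 2⟩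

variable (A B)

/-- The radicand `1 + A t⁴ + B t⁶`. -/
def radicand : LaurentSeries F := 1 + cst A * tt ^ 4 + cst B * tt ^ 6

omit [CharZero F] in
theorem radicand_hasValue : HasValue (radicand A B) 1 := by
  simpa [radicand] using (HasValue.one.add ((HasValue.const A).mul (HasValue.param.pow 4))).add
    ((HasValue.const B).mul (HasValue.param.pow 6))

/-- The square root of the radicand with constant term one. -/
def rootS : LaurentSeries F := (exists_sqrt (radicand_hasValue A B)).choose

theorem rootS_hasValue : HasValue (rootS A B) 1 :=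
  (exists_sqrt (radicand_hasValue A B)).choose_spec.1

theorem rootS_sq : rootS A B ^ 2 = radicand A B :=
  (exists_sqrt (radicand_hasValue A B)).choose_spec.2

/-- The abscissa of the moving point. -/
abbrev genX : LaurentSeries F := (tt ^ 2)⁻¹

/-- The ordinate of the moving point. -/
def genY : LaurentSeries F := rootS A B / tt ^ 3

theorem gen_equation : genY A B ^ 2 = genX ^ 3 + cst A * genX + cst B := by
  have := rootS_sq A B
  have ht := tt_ne_zero (F := F)
  unfold genY genX radicand at *
  generalize (tt : LaurentSeries F) = t at *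
  field_simp
  linear_combination this

variable [(shortCurve A B).IsElliptic]

omit [CharZero F] in
theorem curveL_isElliptic (L : Type*) [Field L] [Algebra F L] :
    (curveL A B L).IsElliptic := by
  rw [curveL, ← short_map]
  infer_instance

theorem gen_nonsingular :
    (curveL A B (LaurentSeries F)).toAffine.Nonsingular genX (genY A B) := by
  have := curveL_isElliptic A B (LaurentSeries F)
  rw [← equation_iff_nonsingular, short_equation_iff]
  exact gen_equation A B

/-- The moving point near the origin. -/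
def genPoint : (curveL A B (LaurentSeries F)).toAffine.Point :=
  Point.some genX (genY A B) (gen_nonsingular A B)

omit [(shortCurve A B).IsElliptic] in
theorem theta_genX_ne_zero : theta (genX : LaurentSeries F) ≠ 0 := by
  have ht := tt_ne_zero (F := F)
  rw [genX, Derivation.leibniz_inv, Derivation.leibniz_pow, theta_tt]
  simp only [smul_eq_mul, nsmul_eq_mul]
  push_cast
  exact mul_ne_zero (neg_ne_zero.mpr (pow_ne_zero _ (inv_ne_zero (pow_ne_zero _ ht))))
    (mul_ne_zero (NeZero.ne (2 : LaurentSeries F))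
      (mul_ne_zero (pow_ne_zero _ ht) ht))

theorem mu_genPoint_ne_zero : mu theta (genPoint A B) ≠ 0 := by
  refine div_ne_zero (theta_genX_ne_zero) (mul_ne_zero (NeZero.ne (2 : LaurentSeries F)) ?_)
  exact div_ne_zero ((rootS_hasValue A B).ne_zero one_ne_zero) (pow_ne_zero _ tt_ne_zero)

variable {A B}
variable [DecidableEq F] [DecidableEq (LaurentSeries F)]

/-- The moving point translated by a constant point has the abscissa of the latter as value. -/
theorem value_genPoint_add {P₀ : (shortCurve A B).toAffine.Point} (h : P₀ ≠ 0) :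
    HasValue (xCoord (genPoint A B + inclusion (L := LaurentSeries F) P₀)) (xCoord P₀) := by
  rcases P₀ with _ | ⟨x₀, y₀, h₀⟩
  · exact absurd rfl h
  have hu : HasValue (1 - cst x₀ * tt ^ 2) 1 := by
    simpa using HasValue.one.sub ((HasValue.const x₀).mul (HasValue.param.pow 2))
  have hu0 : (1 - cst x₀ * tt ^ 2 : LaurentSeries F) ≠ 0 := hu.ne_zero one_ne_zero
  have ht := tt_ne_zero (F := F)
  have hne : (genX : LaurentSeries F) ≠ cst x₀ := fun e =>
    theta_genX_ne_zero (by rw [e]; exact theta_algebraMap x₀)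
  have hval : HasValue
      (((cst x₀ + cst A * tt ^ 2) * (1 + cst x₀ * tt ^ 2) + 2 * cst B * tt ^ 4
        - 2 * cst y₀ * (tt * rootS A B)) / (1 - cst x₀ * tt ^ 2) ^ 2) x₀ := by
    have := (((((HasValue.const x₀).add ((HasValue.const A).mul (HasValue.param.pow 2))).mul
      (HasValue.one.add ((HasValue.const x₀).mul (HasValue.param.pow 2)))).add
      (((HasValue.ofNat (F := F) 2).mul (HasValue.const B)).mul (HasValue.param.pow 4))).sub
      (((HasValue.ofNat (F := F) 2).mul (HasValue.const y₀)).mul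
        (HasValue.param.mul (rootS_hasValue A B)))).div (hu.pow 2) (by norm_num)
    simpa using this
  rw [xCoord_some h₀]
  convert hval using 1
  rw [genPoint, inclusion, coordMap_some, Point.add_some fun h => hne h.1, xCoord_some,
    slope_of_X_ne hne]
  have e₀ := congrArg cst ((short_equation_iff x₀ y₀).mp h₀.left)
  simp only [map_add, map_mul, map_pow] at e₀
  have key := near_origin_addX (t := (tt : LaurentSeries F)) tt_ne_zero hu0 (rootS_sq A B) e₀
  simp only [addX, genY, genX]
  linear_combination key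

theorem exists_genPoint_add (P₀ : (shortCurve A B).toAffine.Point) :
    ∃ x y hxy, genPoint A B + inclusion (L := LaurentSeries F) P₀ = Point.some x y hxy ∧
      theta x ≠ 0 := by
  have h := mu_add theta (theta_algebraMap A) (theta_algebraMap B) (genPoint A B)
    (inclusion (L := LaurentSeries F) P₀)
  rw [mu_inclusion, add_zero] at h
  exact exists_of_mu_ne_zero theta (h.trans_ne (mu_genPoint_ne_zero A B))

variable (N : KernelData A B)

/-- `∑ a_Q`. -/
def c₁ : F := ∑ Q ∈ N.nz, aC Q

/-- `∑ (a_Q x_Q + b_Q)`. -/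
def c₂ : F := ∑ Q ∈ N.nz, (aC Q * xCoord Q + bC Q)

omit [(shortCurve A B).IsElliptic] in
/-- Expansion of the `x`-map at the origin. -/
theorem expand_Rx : ∃ e, Bdd e ∧ N.Rx (genX : LaurentSeries F) =
    genX + cst N.c₁ * tt ^ 2 + cst N.c₂ * tt ^ 4 + tt ^ 6 * e := by
  refine ⟨∑ Q ∈ N.nz,
    (cst (aC Q) * cst (xCoord Q) ^ 2 / (1 - cst (xCoord Q) * tt ^ 2) +
      cst (bC Q) * cst (xCoord Q) * (2 - cst (xCoord Q) * tt ^ 2) /
        (1 - cst (xCoord Q) * tt ^ 2) ^ 2),
    Bdd.sum _ fun Q _ => ?_, ?_⟩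
  · have hu : HasValue (1 - cst (xCoord Q) * tt ^ 2) 1 := by
      simpa using HasValue.one.sub ((HasValue.const (xCoord Q)).mul (HasValue.param.pow 2))
    refine Bdd.add ?_ ?_
    · exact Bdd.of (((HasValue.const _).mul ((HasValue.const _).pow 2)).div hu one_ne_zero)
    · exact Bdd.of ((((HasValue.const _).mul (HasValue.const _)).mul
        ((HasValue.ofNat (F := F) 2).sub ((HasValue.const _).mul (HasValue.param.pow 2)))).div
        (hu.pow 2) (pow_ne_zero _ one_ne_zero))
  rw [Rx_eq_sum (N.notKer_of_deriv_ne_zero theta theta_genX_ne_zero), c₁, c₂, map_sum, map_sum,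
    Finset.sum_mul, Finset.sum_mul, Finset.mul_sum, add_assoc, add_assoc,
    ← Finset.sum_add_distrib, ← Finset.sum_add_distrib]
  refine congrArg (genX + ·) (Finset.sum_congr rfl fun Q _ => ?_)
  have hu : HasValue (1 - cst (xCoord Q) * tt ^ 2) 1 := by
    simpa using HasValue.one.sub ((HasValue.const (xCoord Q)).mul (HasValue.param.pow 2))
  simp only [map_add, map_mul]
  exact (velu_term₁ tt_ne_zero (hu.ne_zero one_ne_zero)).trans (add_assoc _ _ _)

omit [(shortCurve A B).IsElliptic] in
/-- Expansion of the derivative of the `x`-map at the origin. -/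
theorem expand_R1 : ∃ e, Bdd e ∧ N.R1 (genX : LaurentSeries F) =
    1 - cst N.c₁ * tt ^ 4 - 2 * cst N.c₂ * tt ^ 6 - tt ^ 8 * e := by
  refine ⟨∑ Q ∈ N.nz,
    (cst (aC Q) * (3 * cst (xCoord Q) ^ 2 - 2 * cst (xCoord Q) ^ 3 * tt ^ 2) /
        (1 - cst (xCoord Q) * tt ^ 2) ^ 2 +
      2 * cst (bC Q) * cst (xCoord Q) *
        (3 - 3 * (cst (xCoord Q) * tt ^ 2) + (cst (xCoord Q) * tt ^ 2) ^ 2) /
        (1 - cst (xCoord Q) * tt ^ 2) ^ 3),
    Bdd.sum _ fun Q _ => ?_, ?_⟩
  · have hu : HasValue (1 - cst (xCoord Q) * tt ^ 2) 1 := by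
      simpa using HasValue.one.sub ((HasValue.const (xCoord Q)).mul (HasValue.param.pow 2))
    have hw : HasValue (cst (xCoord Q) * tt ^ 2) 0 := by
      simpa using (HasValue.const (xCoord Q)).mul (HasValue.param.pow 2)
    refine Bdd.add ?_ ?_
    · exact Bdd.of (((HasValue.const _).mul ((((HasValue.ofNat (F := F) 3)).mul
        ((HasValue.const _).pow 2)).sub (((HasValue.ofNat (F := F) 2).mul
        ((HasValue.const _).pow 3)).mul (HasValue.param.pow 2)))).div (hu.pow 2)
        (pow_ne_zero _ one_ne_zero))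
    · exact Bdd.of (((((HasValue.ofNat (F := F) 2).mul (HasValue.const _)).mul (HasValue.const _)).mul
        (((HasValue.ofNat (F := F) 3).sub ((HasValue.ofNat (F := F) 3).mul hw)).add
          (hw.pow 2))).div (hu.pow 3) (pow_ne_zero _ one_ne_zero))
  rw [R1_eq_sum theta theta_genX_ne_zero (N.notKer_of_deriv_ne_zero theta theta_genX_ne_zero),
    c₁, c₂, map_sum, map_sum, Finset.sum_mul, Finset.mul_sum, Finset.mul_sum, Finset.sum_mul,
    sub_sub, sub_sub, ← Finset.sum_add_distrib, ← Finset.sum_add_distrib]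
  refine congrArg (1 - ·) (Finset.sum_congr rfl fun Q _ => ?_)
  have hu : HasValue (1 - cst (xCoord Q) * tt ^ 2) 1 := by
    simpa using HasValue.one.sub ((HasValue.const (xCoord Q)).mul (HasValue.param.pow 2))
  simp only [map_add, map_mul]
  exact (velu_term₂ tt_ne_zero (hu.ne_zero one_ne_zero)).trans (add_assoc _ _ _)

/-- The defect of Vélu's identity. -/
def defect {L : Type*} [Field L] [Algebra F L] (x y : L) : L :=
  (N.R1 x * y) ^ 2 -
    (N.Rx x ^ 3 + algebraMap F L N.A' * N.Rx x + algebraMap F L N.B')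

theorem defect_gen : HasValue (N.defect (genX : LaurentSeries F) (genY A B)) 0 := by
  obtain ⟨e₁, he₁, hR⟩ := N.expand_Rx
  obtain ⟨e₂, he₂, hR'⟩ := N.expand_R1
  have hA' : cst N.A' = cst A - 5 * cst N.c₁ := by
    rw [A', c₁, map_sub, map_mul, map_ofNat]
  have hB' : cst N.B' = cst B - 7 * cst N.c₂ := by
    rw [B', c₂, map_sub, map_mul, map_ofNat]
  set p := -cst N.c₁ - 2 * cst N.c₂ * tt ^ 2 - (tt ^ 2) ^ 2 * e₂ with hp
  set q := cst N.c₁ + cst N.c₂ * tt ^ 2 + (tt ^ 2) ^ 2 * e₁ with hq
  set w := cst A + cst B * tt ^ 2 with hw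
  have hu : Bdd (tt ^ 2 : LaurentSeries F) := Bdd.param
  have hzero : Bdd (0 : LaurentSeries F) := ⟨0, HasValue.zero⟩
  have hpB : Bdd p := (((hzero.sub (Bdd.const N.c₁)).sub
    (((Bdd.ofNat 2).mul (Bdd.const N.c₂)).mul hu)).sub ((hu.pow 2).mul he₂)) |> fun h => by
      simpa [hp] using h
  have hqB : Bdd q := ((Bdd.const N.c₁).add ((Bdd.const N.c₂).mul hu)).add ((hu.pow 2).mul he₁)
  have hwB : Bdd w := (Bdd.const A).add ((Bdd.const B).mul hu)
  obtain ⟨a, ha⟩ : Bdd ((-2 * e₂ - 3 * e₁) + p ^ 2 + 2 * p * w + ((tt ^ 2) ^ 2 * p ^ 2) * w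
      - 3 * q ^ 2 - (tt ^ 2) ^ 2 * q ^ 3 - cst N.A' * q) := by
    refine ((((((Bdd.sub ?_ ((Bdd.ofNat 3).mul he₁)).add (hpB.pow 2)).add
      (((Bdd.ofNat 2).mul hpB).mul hwB)).add (((hu.pow 2).mul (hpB.pow 2)).mul hwB)).sub
      ((Bdd.ofNat 3).mul (hqB.pow 2))).sub ((hu.pow 2).mul (hqB.pow 3))).sub
      ((Bdd.const N.A').mul hqB)
    simpa using hzero.sub ((Bdd.ofNat 2).mul he₂)
  have key := ha.mul_param two_ne_zero
  convert key using 1
  rw [defect, show (algebraMap F (LaurentSeries F)) N.A' = cst N.A' from rfl,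
    show (algebraMap F (LaurentSeries F)) N.B' = cst N.B' from rfl, hR, hR', hA', hB', hp, hq, hw]
  exact defect_origin tt_ne_zero (rootS_sq A B)

/-- Vélu's identity as a polynomial. -/
def defectPoly : F[X] :=
  N.dnum ^ 2 * (X ^ 3 + C A * X + C B) -
    (N.num ^ 3 + C N.A' * N.num * N.den ^ 4 + C N.B' * N.den ^ 6)

omit [CharZero F] [(shortCurve A B).IsElliptic] [DecidableEq (LaurentSeries F)] in
theorem aeval_defectPoly {L : Type*} [Field L] [Algebra F L] {x y : L} (hx : N.NotKer x)
    (he : y ^ 2 = x ^ 3 + algebraMap F L A * x + algebraMap F L B) :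
    aeval x N.defectPoly = aeval x N.den ^ 6 * N.defect x y := by
  have hd := aeval_den_ne_zero hx
  simp only [defectPoly, defect, Rx, R1, map_sub, map_add, map_mul, map_pow, aeval_X, aeval_C]
  field_simp
  rw [he]
  ring

theorem pow_dvd_defectPoly {Q : (shortCurve A B).toAffine.Point} (hQ : Q ∈ N.nz) :
    (X - C (xCoord Q)) ^ 6 ∣ N.defectPoly := by
  obtain ⟨x₁, y₁, h₁, hP₁, hx₁⟩ := exists_genPoint_add (A := A) (B := B) Q
  have hk₁ := N.notKer_of_deriv_ne_zero theta hx₁
  obtain ⟨-, hR, hR1⟩ := N.translate theta theta_genX_ne_zero (N.mem_nz.mp hQ).2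
    (hP := gen_nonsingular A B) hP₁
  have hdef : N.defect x₁ y₁ = N.defect (genX : LaurentSeries F) (genY A B) := by
    rw [defect, defect, hR, hR1]
  have hval : HasValue x₁ (xCoord Q) := by
    have := value_genPoint_add (A := A) (B := B) (N.mem_nz.mp hQ).1
    rwa [hP₁, xCoord_some] at this
  set s := xCoord Q with hs
  by_contra hdvd
  have hne : N.defectPoly ≠ 0 := fun h => hdvd (h ▸ dvd_zero _)
  obtain ⟨H₁, hH, hH₁⟩ := Polynomial.exists_eq_pow_rootMultiplicity_mul_and_not_dvd _ hne s
  set k := N.defectPoly.rootMultiplicity s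
  have hk : k < 6 := by
    by_contra hk
    exact hdvd ((pow_dvd_pow _ (not_lt.mp hk)).trans (hH ▸ dvd_mul_right _ _))
  have hH₁s : H₁.eval s ≠ 0 := fun h => hH₁ (dvd_iff_isRoot.mpr h)
  have hden := congrArg (aeval x₁) (N.mul_denErase (N.xCoord_mem_xs hQ))
  simp only [map_mul, map_sub, aeval_X, aeval_C] at hden
  have he := N.aeval_defectPoly hk₁ ((short_equation_iff x₁ y₁).mp h₁.left)
  rw [hdef, ← hden, hH] at he
  simp only [map_mul, map_pow, map_sub, aeval_X, aeval_C] at he
  obtain ⟨j, hj⟩ : ∃ j, 6 = k + (j + 1) := ⟨5 - k, by omega⟩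
  have hu0 : x₁ - algebraMap F (LaurentSeries F) s ≠ 0 :=
    sub_ne_zero.mpr (hk₁ s (N.xCoord_mem_xs hQ))
  have hh : aeval x₁ H₁ = (x₁ - algebraMap F (LaurentSeries F) s) ^ (j + 1) *
      (aeval x₁ (N.denErase s) ^ 6 * N.defect (genX : LaurentSeries F) (genY A B)) := by
    refine mul_left_cancel₀ (pow_ne_zero k hu0) ?_
    rw [he, ← hs, mul_pow, ← mul_assoc _ ((x₁ - algebraMap F (LaurentSeries F) s) ^ (j + 1)),
      ← pow_add, ← hj, mul_assoc]
  have hv : HasValue (aeval x₁ H₁) 0 := by
    rw [hh]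
    have := ((hval.sub (HasValue.const s)).pow (j + 1)).mul
      (((hval.aeval (N.denErase s)).pow 6).mul N.defect_gen)
    simpa using this
  exact hH₁s ((hval.aeval H₁).unique hv)

theorem den_pow_dvd_defectPoly : N.den ^ 6 ∣ N.defectPoly := by
  rw [den, ← Finset.prod_pow]
  refine Finset.prod_dvd_of_coprime ?_ fun s hs => ?_
  · intro s _ s' _ hne
    exact (Polynomial.pairwise_coprime_X_sub_C Function.injective_id hne).pow
  · obtain ⟨Q, hQ, rfl⟩ := Finset.mem_image.mp hs
    exact N.pow_dvd_defectPoly hQ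

/-- Vélu's identity. -/
theorem defectPoly_eq_zero : N.defectPoly = 0 := by
  obtain ⟨K, hK⟩ := N.den_pow_dvd_defectPoly
  have hk := N.notKer_of_deriv_ne_zero theta (theta_genX_ne_zero (F := F))
  have he := N.aeval_defectPoly hk ((short_equation_iff _ _).mp (gen_nonsingular A B).left)
  rw [hK, map_mul, map_pow] at he
  have hv : HasValue (aeval (genX : LaurentSeries F) K) 0 :=
    (mul_left_cancel₀ (pow_ne_zero 6 (aeval_den_ne_zero hk)) he) ▸ N.defect_gen
  suffices hK0 : K = 0 by rw [hK, hK0, mul_zero]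
  by_contra hK0
  set d := K.natDegree with hd
  have hlead : HasValue (aeval (genX : LaurentSeries F) K * tt ^ (2 * d)) K.leadingCoeff := by
    rw [aeval_def, eval₂_eq_sum_range, Finset.sum_mul, ← hd]
    have hterm : ∀ i ∈ Finset.range (d + 1),
        HasValue (cst (K.coeff i) * (genX : LaurentSeries F) ^ i * tt ^ (2 * d))
          (if i = d then K.leadingCoeff else 0) := by
      intro i hi
      obtain ⟨j, hj⟩ := Nat.exists_eq_add_of_le (Finset.mem_range_succ_iff.mp hi)
      have : cst (K.coeff i) * (genX : LaurentSeries F) ^ i * tt ^ (2 * d) =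
          cst (K.coeff i) * tt ^ (2 * j) := by
        have ht : ((tt : LaurentSeries F) ^ 2) ^ i ≠ 0 := pow_ne_zero _ (pow_ne_zero _ tt_ne_zero)
        rw [mul_assoc, genX, inv_pow, hj, mul_add, pow_add,
          pow_mul (tt : LaurentSeries F) 2 i, inv_mul_cancel_left₀ ht]
      rw [this]
      by_cases hid : i = d
      · obtain rfl : j = 0 := by omega
        rw [if_pos hid, mul_zero, pow_zero, mul_one, hid, hd]
        exact HasValue.const _
      · rw [if_neg hid]
        exact (HasValue.const _).mul_param (by omega)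
    have hs := HasValue.sum (Finset.range (d + 1)) hterm
    rwa [Finset.sum_ite_eq', if_pos (Finset.self_mem_range_succ d)] at hs
  rcases Nat.eq_zero_or_pos d with hd0 | hd0
  · rw [hd0, mul_zero, pow_zero, mul_one] at hlead
    exact leadingCoeff_ne_zero.mpr hK0 (hlead.unique hv)
  · exact hv.false_of_pole (by omega) hlead (leadingCoeff_ne_zero.mpr hK0)

/-- Vélu's identity over any field, off the kernel. -/
theorem velu_identity {L : Type*} [Field L] [Algebra F L] {x y : L} (hx : N.NotKer x)
    (he : y ^ 2 = x ^ 3 + algebraMap F L A * x + algebraMap F L B) :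
    (N.R1 x * y) ^ 2 =
      N.Rx x ^ 3 + algebraMap F L N.A' * N.Rx x + algebraMap F L N.B' := by
  have h := N.aeval_defectPoly hx he
  rw [N.defectPoly_eq_zero, map_zero, eq_comm, mul_eq_zero] at h
  exact sub_eq_zero.mp (h.resolve_left (pow_ne_zero 6 (aeval_den_ne_zero hx)))

variable [IsAlgClosed F]

/-- The target curve is nonsingular. -/
theorem target_isElliptic : (shortCurve N.A' N.B').IsElliptic := by
  rw [WeierstrassCurve.isElliptic_iff, isUnit_iff_ne_zero, short_Δ]
  intro h0
  have h0' : 4 * N.A' ^ 3 + 27 * N.B' ^ 2 = 0 :=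
    (mul_eq_zero.mp h0).resolve_left (by norm_num)
  obtain ⟨c, hcA, hcB⟩ : ∃ c : F, N.A' = -3 * c ^ 2 ∧ N.B' = 2 * c ^ 3 := by
    by_cases hA : N.A' = 0
    · refine ⟨0, by simp [hA], ?_⟩
      rw [hA] at h0'
      simpa using h0'
    · refine ⟨-3 * N.B' / (2 * N.A'), ?_, ?_⟩
      · field_simp
        linear_combination h0'
      · field_simp
        linear_combination N.B' * h0'
  set h := N.num - C c * N.den ^ 2 with hh
  set m := N.xs.card
  have hdeg : N.den.natDegree = m := natDegree_finsetProd_X_sub_C_eq_card _ id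
  have hdegh : h.degree = ((2 * m + 1 : ℕ) : WithBot ℕ) := by
    have hmain : (X * N.den ^ 2 : F[X]).degree = ((2 * m + 1 : ℕ) : WithBot ℕ) := by
      rw [degree_eq_natDegree (mul_ne_zero X_ne_zero (pow_ne_zero 2 N.den_ne_zero)),
        natDegree_mul X_ne_zero (pow_ne_zero 2 N.den_ne_zero), natDegree_X, natDegree_pow, hdeg,
        add_comm]
    have hsmall : (∑ Q ∈ N.nz, (C (aC Q) * N.den * N.denErase (xCoord Q) +
        C (bC Q) * N.denErase (xCoord Q) ^ 2) - C c * N.den ^ 2).natDegree ≤ 2 * m := by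
      have he : ∀ Q : (shortCurve A B).toAffine.Point, (N.denErase (xCoord Q)).natDegree ≤ m := fun Q =>
        (natDegree_finsetProd_X_sub_C_eq_card _ id).trans_le
          (Finset.card_le_card (Finset.erase_subset _ _))
      refine (natDegree_sub_le _ _).trans (max_le ?_ ?_)
      · refine natDegree_sum_le_of_forall_le _ _ fun Q _ => ?_
        refine (natDegree_add_le _ _).trans (max_le ?_ ?_)
        · refine natDegree_mul_le.trans ?_
          have h1 := natDegree_C_mul_le (aC Q) N.den
          have := he Q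
          omega
        · refine (natDegree_C_mul_le _ _).trans (natDegree_pow_le.trans ?_)
          have := he Q
          omega
      · exact (natDegree_C_mul_le _ _).trans (natDegree_pow_le.trans (by omega))
    have hlt : (∑ Q ∈ N.nz, (C (aC Q) * N.den * N.denErase (xCoord Q) +
        C (bC Q) * N.denErase (xCoord Q) ^ 2) - C c * N.den ^ 2).degree
          < (X * N.den ^ 2 : F[X]).degree := by
      rw [hmain]
      refine degree_le_natDegree.trans_lt ?_
      exact WithBot.coe_lt_coe.mpr (Nat.lt_succ_of_le hsmall)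
    rw [hh, num, add_sub_assoc, degree_add_eq_left_of_degree_lt hlt, hmain]
  obtain ⟨z, hz⟩ := IsAlgClosed.exists_root h (by
    rw [hdegh, ne_eq, Nat.cast_eq_zero]; omega)
  have hz' : h.eval z = 0 := hz
  have hden : N.den.eval z ≠ 0 := by
    intro hd
    obtain ⟨Q, hQ, rfl⟩ := Finset.mem_image.mp (N.eval_den_eq_zero_iff.mp hd)
    rw [hh, eval_sub, eval_mul, eval_C, eval_pow, hd, zero_pow two_ne_zero, mul_zero,
      sub_zero] at hz'
    exact N.eval_num_xs hQ hz'
  have hne : h ≠ 0 := fun e => by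
    rw [e, degree_zero] at hdegh
    exact WithBot.bot_ne_natCast _ hdegh
  obtain ⟨h₁, hh₁, hh₁'⟩ := Polynomial.exists_eq_pow_rootMultiplicity_mul_and_not_dvd _ hne z
  obtain ⟨j, hj⟩ : ∃ j, h.rootMultiplicity z = j + 1 :=
    Nat.exists_eq_add_one.mpr ((rootMultiplicity_pos hne).mpr hz)
  rw [hj] at hh₁
  set f : F[X] := X ^ 3 + C A * X + C B with hf
  have hid : N.dnum ^ 2 * f = h ^ 2 * (N.num + C (2 * c) * N.den ^ 2) := by
    have := sub_eq_zero.mp N.defectPoly_eq_zero
    rw [this, hh, hcA, hcB]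
    simp only [map_mul, map_neg, map_pow, map_ofNat]
    ring
  set W₁ := (j + 1 : F[X]) * h₁ * N.den +
    (X - C z) * (derivative h₁ * N.den - 2 * h₁ * derivative N.den)
  have hW : N.dnum = (X - C z) ^ j * W₁ := by
    have : N.dnum = derivative h * N.den - 2 * h * derivative N.den := by
      rw [dnum, hh]
      simp only [derivative_sub, derivative_mul, derivative_C, derivative_pow, map_ofNat,
        Nat.cast_ofNat, zero_mul, zero_add]
      ring
    rw [this, hh₁]
    simp only [derivative_mul, derivative_pow, derivative_sub, derivative_X, derivative_C,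
      sub_zero, mul_one, map_add, map_natCast, map_one, Nat.cast_add, Nat.cast_one,
      add_tsub_cancel_right, W₁]
    ring
  set g := h₁ ^ 2 * (N.num + C (2 * c) * N.den ^ 2)
  have hid' : W₁ ^ 2 * f = (X - C z) ^ 2 * g := by
    refine mul_left_cancel₀ (pow_ne_zero (2 * j) (X_sub_C_ne_zero z)) ?_
    have := hid
    rw [hW, hh₁] at this
    linear_combination this
  have hW₁ : W₁.eval z ≠ 0 := by
    simp only [W₁, eval_add, eval_mul, eval_sub, eval_X, eval_C, sub_self, zero_mul, add_zero,
      eval_natCast, eval_one]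
    exact mul_ne_zero (mul_ne_zero (Nat.cast_add_one_ne_zero j)
      fun e => hh₁' (dvd_iff_isRoot.mpr e)) hden
  have hf0 : f.eval z = 0 := by
    have := congrArg (Polynomial.eval z) hid'
    simp [hW₁] at this
    exact this
  have hf1 : (derivative f).eval z = 0 := by
    have := congrArg (Polynomial.eval z) (congrArg derivative hid')
    simp [derivative_mul, derivative_pow, hW₁, hf0] at this
    exact this
  simp only [hf, eval_add, eval_mul, eval_pow, eval_X, eval_C] at hf0
  simp [hf, derivative_pow] at hf1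
  have hns : (shortCurve A B).toAffine.Nonsingular z 0 := by
    rw [← equation_iff_nonsingular, short_equation_iff]
    linear_combination -hf0
  rcases ((nonsingular_iff z 0).mp hns).2 with hx | hy
  · exact hx (by simp; linear_combination -hf1)
  · exact hy (by simp)

end KernelData

end Fermat.Agent.Isogeny
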