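import Mathlib
import Fermat.Agent.Isogeny.VeluIdentity

/-!
# The isogeny as a homomorphism of point groups

`C(P₀)` is the constant `φ(G + P₀) - φ(G)` for the moving point `G`.
-/

open WeierstrassCurve WeierstrassCurve.Affine Polynomial

noncomputable section

namespace Fermat.Agent.Isogeny

namespace KernelData

-- as in `Laurent`, the module structure coming from the algebra structure
attribute [local instance 10000] Algebra.toModule

variable {F : Type*} [Field F] [CharZero F] [IsAlgClosed F] [DecidableEq F]
  [DecidableEq (LaurentSeries F)] {A B : F} [(shortCurve A B).IsElliptic] (N : KernelData A B)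

omit [CharZero F] [IsAlgClosed F] [DecidableEq F] [DecidableEq (LaurentSeries F)]
  [(shortCurve A B).IsElliptic] in
theorem isElliptic_over {L : Type*} [Field L] [Algebra F L] {a b : F}
    (h : (shortCurve a b).IsElliptic) : (curveL a b L).IsElliptic :=
  haveI := h
  curveL_isElliptic a b L

omit [IsAlgClosed F] in
theorem dnum_ne_zero : N.dnum ≠ 0 := by
  intro h
  obtain ⟨e, ⟨a, he⟩, hR⟩ := N.expand_R1
  rw [R1, h, map_zero, zero_div] at hR
  have hv : HasValue (1 - cst N.c₁ * tt ^ 4 - 2 * cst N.c₂ * tt ^ 6 - tt ^ 8 * e) (1 : F) := by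
    simpa using ((HasValue.one.sub ((HasValue.const N.c₁).mul (HasValue.param.pow 4))).sub
      (((HasValue.ofNat (F := F) 2).mul (HasValue.const N.c₂)).mul (HasValue.param.pow 6))).sub
      ((HasValue.param.pow 8).mul he)
  exact hv.ne_zero one_ne_zero hR.symm

omit [CharZero F] [DecidableEq F] [DecidableEq (LaurentSeries F)]
  [(shortCurve A B).IsElliptic] in
/-- A moving element is transcendental. -/
theorem aeval_ne_zero_of_deriv_ne_zero {L : Type*} [Field L] [Algebra F L]
    (D : Derivation F L L) {x : L} (hx : D x ≠ 0) {p : F[X]} (hp : p ≠ 0) : aeval x p ≠ 0 := by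
  intro h0
  have hsplit := Splits.eq_prod_roots (IsAlgClosed.splits p)
  rw [hsplit, map_mul, map_multiset_prod, aeval_C, mul_eq_zero, map_eq_zero,
    Multiset.prod_eq_zero_iff] at h0
  rcases h0 with h | h
  · exact leadingCoeff_ne_zero.mpr hp h
  · simp only [Multiset.mem_map, exists_exists_and_eq_and, map_sub, aeval_X, aeval_C,
      sub_eq_zero] at h
    obtain ⟨r, -, rfl⟩ := h
    exact hx (D.map_algebraMap r)

section Point

variable {L : Type*} [Field L] [Algebra F L]

theorem image_nonsingular {x y : L} (hP : (curveL A B L).toAffine.Nonsingular x y)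
    (hx : N.NotKer x) :
    (curveL N.A' N.B' L).toAffine.Nonsingular (N.Rx x) (N.R1 x * y) := by
  have := isElliptic_over (L := L) N.target_isElliptic
  rw [← equation_iff_nonsingular, short_equation_iff]
  exact N.velu_identity hx ((short_equation_iff x y).mp hP.left)

open Classical in
/-- The map on points: kernel abscissas go to the origin. -/
def phiPt : (curveL A B L).toAffine.Point → (curveL N.A' N.B' L).toAffine.Point
  | .zero => 0
  | .some x y h => if hx : N.NotKer x then Point.some _ _ (N.image_nonsingular h hx) else 0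

theorem phiPt_some {x y : L} (h : (curveL A B L).toAffine.Nonsingular x y) (hx : N.NotKer x) :
    N.phiPt (Point.some x y h) = Point.some _ _ (N.image_nonsingular h hx) := dif_pos hx

theorem phiPt_some_neg {x y : L} (h : (curveL A B L).toAffine.Nonsingular x y)
    (hx : ¬N.NotKer x) : N.phiPt (Point.some x y h) = 0 := dif_neg hx

/-- Naturality in the field. -/
theorem phiPt_map [DecidableEq L] {M : Type*} [Field M] [Algebra F M] [DecidableEq M]
    (σ : F →+* F) (j : L →+* M) (hj : ∀ c, j (algebraMap F L c) = algebraMap F M (σ c))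
    (hden : N.den.map σ = N.den) (hnum : N.num.map σ = N.num)
    (hxs : N.xs.image σ = N.xs)
    (hC : (curveL A B L).map j = curveL A B M)
    (hC' : (curveL N.A' N.B' L).map j = curveL N.A' N.B' M)
    (P : (curveL A B L).toAffine.Point) :
    N.phiPt (coordMap j hC P) = coordMap j hC' (N.phiPt P) := by
  rcases P with _ | ⟨x, y, h⟩
  · exact (map_zero (coordMap j hC')).symm
  rw [coordMap_some]
  have hdnum : N.dnum.map σ = N.dnum := by
    simp [dnum, Polynomial.map_sub, Polynomial.map_mul, ← Polynomial.derivative_map, hden, hnum]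
  have ha : ∀ p : F[X], p.map σ = p → j (aeval x p) = aeval (j x) p := by
    intro p hp
    conv_rhs => rw [← hp]
    rw [aeval_def, aeval_def, hom_eval₂, eval₂_map]
    congr 1
    ext c
    exact hj c
  by_cases hx : N.NotKer x
  · have hx' : N.NotKer (j x) := by
      intro s hs
      rw [← hxs] at hs
      obtain ⟨s', hs', rfl⟩ := Finset.mem_image.mp hs
      rw [← hj]
      exact fun e => hx s' hs' (j.injective e)
    rw [N.phiPt_some h hx, N.phiPt_some _ hx', coordMap_some]
    simp only [Rx, R1, map_mul, map_div₀, map_pow, ha _ hden, ha _ hnum,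
      ha _ hdnum]
  · have hx' : ¬N.NotKer (j x) := by
      simp only [NotKer, not_forall, not_not] at hx ⊢
      obtain ⟨s, hs, rfl⟩ := hx
      exact ⟨σ s, hxs ▸ Finset.mem_image_of_mem σ hs, hj s⟩
    rw [N.phiPt_some_neg h hx, N.phiPt_some_neg _ hx', map_zero]

variable [DecidableEq L] [NeZero (2 : L)] (D : Derivation F L L)

theorem mu_phiPt {P : (curveL A B L).toAffine.Point} (h : mu D P ≠ 0) :
    mu D (N.phiPt P) = mu D P := by
  obtain ⟨x, y, hxy, rfl, hx⟩ := exists_of_mu_ne_zero D h
  have hk := N.notKer_of_deriv_ne_zero D hx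
  have hy : y ≠ 0 := by
    rintro rfl
    exact h (by rw [mu_some, mul_zero, div_zero])
  have hR1 : N.R1 x ≠ 0 :=
    div_ne_zero (aeval_ne_zero_of_deriv_ne_zero D hx N.dnum_ne_zero)
      (pow_ne_zero _ (aeval_den_ne_zero hk))
  rw [N.phiPt_some hxy hk, mu_some, mu_some, deriv_Rx D hk]
  field_simp

end Point

section FunctionField

variable (A B)

/-- The function field of the curve. -/
abbrev Kfun := (shortCurve A B).toAffine.FunctionField

/-- The coordinate `x` in the function field. -/
def coordX : Kfun A B :=
  algebraMap (shortCurve A B).toAffine.CoordinateRing _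
    (AdjoinRoot.of (shortCurve A B).toAffine.polynomial X)

/-- The coordinate `y` in the function field. -/
def coordY : Kfun A B :=
  algebraMap (shortCurve A B).toAffine.CoordinateRing _
    (AdjoinRoot.root (shortCurve A B).toAffine.polynomial)

variable {A B}
variable {L : Type*} [Field L] [Algebra F L]

/-- Evaluation of the coordinate ring at a point. -/
def evalHom (x y : L) (he : y ^ 2 = x ^ 3 + algebraMap F L A * x + algebraMap F L B) :
    (shortCurve A B).toAffine.CoordinateRing →ₐ[F] L :=
  AdjoinRoot.liftAlgHom _ (aeval x) y (by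
    simp only [WeierstrassCurve.Affine.polynomial, eval₂_sub,
      eval₂_add, eval₂_mul, eval₂_pow, eval₂_X, eval₂_C, map_add, map_mul, map_pow, map_zero,
      RingHom.coe_coe, aeval_X, aeval_C, zero_mul,
      add_zero]
    linear_combination he)

omit [DecidableEq F] [DecidableEq (LaurentSeries F)] [(shortCurve A B).IsElliptic] [CharZero F] in
theorem evalHom_injective (D : Derivation F L L) {x y : L} (hx : D x ≠ 0)
    (he : y ^ 2 = x ^ 3 + algebraMap F L A * x + algebraMap F L B) :
    Function.Injective (evalHom x y he) := by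
  rw [injective_iff_map_eq_zero]
  intro z hz
  obtain ⟨p, q, rfl⟩ := CoordinateRing.exists_smul_basis_eq z
  have hpq : aeval x p + aeval x q * y = 0 := by
    rw [evalHom, CoordinateRing.smul, CoordinateRing.smul, map_add, map_mul, map_mul, map_one,
      mul_one] at hz
    simpa [CoordinateRing.mk, AdjoinRoot.liftAlgHom_mk] using hz
  by_contra hne
  have := Module.Finite.of_basis (CoordinateRing.basis (shortCurve A B).toAffine)
  refine aeval_ne_zero_of_deriv_ne_zero D hx (Algebra.norm_ne_zero_iff.mpr hne) ?_
  rw [CoordinateRing.norm_smul_basis]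
  simp only [map_sub, map_mul, map_pow, map_add, aeval_X, aeval_C,
    map_zero, zero_mul, mul_zero, add_zero, sub_zero]
  linear_combination (aeval x p - aeval x q * y) * hpq + (aeval x q) ^ 2 * he

/-- The embedding of the function field given by a moving point. -/
def fieldHom (D : Derivation F L L) {x y : L} (hx : D x ≠ 0)
    (he : y ^ 2 = x ^ 3 + algebraMap F L A * x + algebraMap F L B) : Kfun A B →ₐ[F] L :=
  IsFractionRing.liftAlgHom (evalHom_injective D hx he)

omit [DecidableEq F] [DecidableEq (LaurentSeries F)] [(shortCurve A B).IsElliptic] [CharZero F] in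
theorem fieldHom_coord (D : Derivation F L L) {x y : L} (hx : D x ≠ 0)
    (he : y ^ 2 = x ^ 3 + algebraMap F L A * x + algebraMap F L B) :
    fieldHom D hx he (coordX A B) = x ∧ fieldHom D hx he (coordY A B) = y := by
  constructor <;>
    rw [fieldHom, IsFractionRing.liftAlgHom_apply]
  · rw [coordX, IsFractionRing.lift_algebraMap]
    simp [evalHom]
  · rw [coordY, IsFractionRing.lift_algebraMap]
    simp [evalHom]

omit [DecidableEq (LaurentSeries F)] [DecidableEq F] [(shortCurve A B).IsElliptic] in
theorem coord_equation :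
    coordY A B ^ 2 = coordX A B ^ 3 + algebraMap F (Kfun A B) A * coordX A B +
      algebraMap F (Kfun A B) B := by
  obtain ⟨hX, hY⟩ := fieldHom_coord (theta (F := F)) theta_genX_ne_zero (gen_equation A B)
  apply (fieldHom (theta (F := F)) theta_genX_ne_zero (gen_equation A B)).injective
  simp only [AlgHom.toRingHom_eq_coe, RingHom.coe_coe, map_add, map_mul, map_pow,
    AlgHom.commutes, hX, hY]
  exact gen_equation A B

end FunctionField

section Hom

local notation "LF" => LaurentSeries F

omit [IsAlgClosed F] [(shortCurve A B).IsElliptic] [DecidableEq (LaurentSeries F)]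
  [DecidableEq F] in
omit [CharZero F] in
theorem curveL_map {L M : Type*} [Field L] [Field M] [Algebra F L] [Algebra F M] (σ : F →+* F)
    (j : L →+* M) (hj : ∀ c, j (algebraMap F L c) = algebraMap F M (σ c)) {a b : F}
    (ha : σ a = a) (hb : σ b = b) : (curveL a b L).map j = curveL a b M := by
  rw [curveL, short_map, hj, hj, ha, hb]

/-- `φ(P + P₀) - φ(P)`. -/
def psiL {L : Type*} [Field L] [Algebra F L] [DecidableEq L]
    (P : (curveL A B L).toAffine.Point) (P₀ : (shortCurve A B).toAffine.Point) :
    (curveL N.A' N.B' L).toAffine.Point :=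
  N.phiPt (P + inclusion P₀) - N.phiPt P

omit [CharZero F] [IsAlgClosed F] [(shortCurve A B).IsElliptic]
  [DecidableEq (LaurentSeries F)] in
theorem coordMap_inclusion {L M : Type*} [Field L] [Field M] [Algebra F L] [Algebra F M]
    [DecidableEq L] [DecidableEq M] {a b : F} (σ : F →+* F) (hs : (shortCurve a b).map σ = shortCurve a b)
    (j : L →+* M) (hj : ∀ c, j (algebraMap F L c) = algebraMap F M (σ c))
    (hC : (curveL a b L).map j = curveL a b M) (P : (shortCurve a b).toAffine.Point) :
    coordMap j hC (inclusion P) = inclusion (coordMap σ hs P) := by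
  rcases P with _ | ⟨x, y, h⟩
  · rfl
  · simp only [inclusion, coordMap_some, hj]

/-- Naturality of `psiL`. -/
theorem psiL_map {L M : Type*} [Field L] [Field M] [Algebra F L] [Algebra F M]
    [DecidableEq L] [DecidableEq M] (σ : F →+* F) (j : L →+* M)
    (hj : ∀ c, j (algebraMap F L c) = algebraMap F M (σ c))
    (hden : N.den.map σ = N.den) (hnum : N.num.map σ = N.num) (hxs : N.xs.image σ = N.xs)
    (hs : (shortCurve A B).map σ = shortCurve A B)
    (hC : (curveL A B L).map j = curveL A B M)
    (hC' : (curveL N.A' N.B' L).map j = curveL N.A' N.B' M)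
    (P : (curveL A B L).toAffine.Point) (P₀ : (shortCurve A B).toAffine.Point) :
    coordMap j hC' (N.psiL P P₀) = N.psiL (coordMap j hC P) (coordMap σ hs P₀) := by
  rw [psiL, psiL, map_sub, ← N.phiPt_map σ j hj hden hnum hxs hC hC',
    ← N.phiPt_map σ j hj hden hnum hxs hC hC', map_add, coordMap_inclusion σ hs j hj hC]

theorem mu_psiL {P : (curveL A B LF).toAffine.Point} (h : mu theta P ≠ 0)
    (P₀ : (shortCurve A B).toAffine.Point) : mu theta (N.psiL P P₀) = 0 := by
  have h' : mu theta (P + inclusion P₀) = mu theta P := by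
    rw [mu_add theta (theta_algebraMap A) (theta_algebraMap B), mu_inclusion, add_zero]
  rw [psiL, mu_sub theta (theta_algebraMap N.A') (theta_algebraMap N.B'),
    N.mu_phiPt theta (h'.trans_ne h), N.mu_phiPt theta h, h', sub_self]

omit [IsAlgClosed F] in
theorem exists_of_mu_eq_zero {a b : F} (hab : (shortCurve a b).IsElliptic)
    {P : (curveL a b LF).toAffine.Point} (h : mu theta P = 0) :
    ∃ C : (shortCurve a b).toAffine.Point, inclusion (L := LF) C = P := by
  have := hab
  rcases P with _ | ⟨x, y, hxy⟩
  · exact ⟨0, rfl⟩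
  obtain ⟨hx, hy⟩ := deriv_eq_mu theta (theta_algebraMap a) (theta_algebraMap b) hxy
  rw [h, mul_zero] at hx hy
  obtain ⟨u, rfl⟩ := exists_C_of_theta_eq_zero hx
  obtain ⟨v, rfl⟩ := exists_C_of_theta_eq_zero hy
  simp only [← algebraMap_eq_C] at hxy ⊢
  have huv : (shortCurve a b).toAffine.Nonsingular u v := by
    rw [← equation_iff_nonsingular, short_equation_iff]
    apply (algebraMap F LF).injective
    simpa using (short_equation_iff _ _).mp hxy.left
  exact ⟨Point.some u v huv, rfl⟩

/-- The value of the isogeny. -/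
def velu (P₀ : (shortCurve A B).toAffine.Point) : (shortCurve N.A' N.B').toAffine.Point :=
  (exists_of_mu_eq_zero N.target_isElliptic (N.mu_psiL (mu_genPoint_ne_zero A B) P₀)).choose

theorem inclusion_velu (P₀ : (shortCurve A B).toAffine.Point) :
    inclusion (L := LF) (N.velu P₀) = N.psiL (genPoint A B) P₀ :=
  (exists_of_mu_eq_zero N.target_isElliptic (N.mu_psiL (mu_genPoint_ne_zero A B) P₀)).choose_spec

omit [IsAlgClosed F] [DecidableEq (LaurentSeries F)] [CharZero F] in
theorem coordMap_id {a b : F} (h : (shortCurve a b).map (RingHom.id F) = shortCurve a b)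
    (P : (shortCurve a b).toAffine.Point) : coordMap (RingHom.id F) h P = P := by
  cases P <;> rfl

/-- The constant does not depend on the moving point. -/
theorem psiL_eq_velu {P : (curveL A B LF).toAffine.Point} (h : mu theta P ≠ 0)
    (P₀ : (shortCurve A B).toAffine.Point) :
    N.psiL P P₀ = inclusion (L := LF) (N.velu P₀) := by
  classical
  obtain ⟨x, y, hxy, rfl, hx⟩ := exists_of_mu_ne_zero theta h
  have := curveL_isElliptic A B (Kfun A B)
  have hK : (curveL A B (Kfun A B)).toAffine.Nonsingular (coordX A B) (coordY A B) := by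
    rw [← equation_iff_nonsingular, short_equation_iff]
    exact coord_equation
  have hid : (shortCurve A B).map (RingHom.id F) = shortCurve A B := rfl
  have hid' : (shortCurve N.A' N.B').map (RingHom.id F) = shortCurve N.A' N.B' := rfl
  have key : ∀ {u v : LF} (huv : (curveL A B LF).toAffine.Nonsingular u v) (hu : theta u ≠ 0),
      coordMap (fieldHom theta hu ((short_equation_iff u v).mp huv.left)).toRingHom
        (curveL_map (RingHom.id F) _ (fun c => AlgHom.commutes _ c) rfl rfl)
        (N.psiL (Point.some _ _ hK) P₀) = N.psiL (Point.some u v huv) P₀ := by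
    intro u v huv hu
    obtain ⟨hX, hY⟩ := fieldHom_coord theta hu ((short_equation_iff u v).mp huv.left)
    rw [N.psiL_map (RingHom.id F) _ (fun c => AlgHom.commutes _ c) (Polynomial.map_id)
      (Polynomial.map_id) (Finset.image_id) hid
      (curveL_map (RingHom.id F) _ (fun c => AlgHom.commutes _ c) rfl rfl), coordMap_id,
      coordMap_some]
    simp only [AlgHom.toRingHom_eq_coe, RingHom.coe_coe, hX, hY]
  have hgen := key (gen_nonsingular A B) theta_genX_ne_zero
  rw [show Point.some genX (genY A B) (gen_nonsingular A B) = genPoint A B from rfl,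
    ← N.inclusion_velu] at hgen
  rw [← coordMap_id hid' (N.velu P₀), ← coordMap_inclusion (RingHom.id F) hid'
    (fieldHom theta theta_genX_ne_zero
      ((short_equation_iff _ _).mp (gen_nonsingular A B).left)).toRingHom
    (fun c => AlgHom.commutes _ c)
    (curveL_map (RingHom.id F) _ (fun c => AlgHom.commutes _ c) rfl rfl)] at hgen
  have hconst := coordMap_injective _ _ hgen
  rw [← key hxy hx, hconst, coordMap_inclusion (RingHom.id F) hid' _
    (fun c => AlgHom.commutes _ c), coordMap_id]

theorem velu_add (P Q : (shortCurve A B).toAffine.Point) :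
    N.velu (P + Q) = N.velu P + N.velu Q := by
  apply coordMap_injective (algebraMap F LF) (short_map _)
  change inclusion (L := LF) (N.velu (P + Q)) = inclusion (L := LF) (N.velu P + N.velu Q)
  have hg : mu theta (genPoint A B + inclusion (L := LF) P) ≠ 0 := by
    rw [mu_add theta (theta_algebraMap A) (theta_algebraMap B), mu_inclusion, add_zero]
    exact mu_genPoint_ne_zero A B
  rw [map_add, N.inclusion_velu, N.inclusion_velu P, ← N.psiL_eq_velu hg, psiL, psiL, psiL,
    map_add, add_assoc]
  abel

/-- The isogeny on points. -/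
def veluHom : (shortCurve A B).toAffine.Point →+ (shortCurve N.A' N.B').toAffine.Point :=
  AddMonoidHom.mk' N.velu N.velu_add

theorem mem_ker_veluHom (P₀ : (shortCurve A B).toAffine.Point) :
    N.veluHom P₀ = 0 ↔ P₀ ∈ N.pts := by
  have hiff : N.veluHom P₀ = 0 ↔
      N.phiPt (genPoint A B + inclusion (L := LF) P₀) = N.phiPt (genPoint A B) := by
    rw [← sub_eq_zero (b := N.phiPt (genPoint A B)), veluHom, AddMonoidHom.mk'_apply,
      ← (coordMap_injective (algebraMap F LF) (short_map (A := N.A') (B := N.B') _)).eq_iff,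
      map_zero, show coordMap (algebraMap F LF) (short_map _) (N.velu P₀) =
        inclusion (L := LF) (N.velu P₀) from rfl, N.inclusion_velu]
    rfl
  rw [hiff]
  obtain ⟨x₁, y₁, h₁, hP₁, hx₁⟩ := exists_genPoint_add (A := A) (B := B) P₀
  have hk₁ := N.notKer_of_deriv_ne_zero theta hx₁
  have hk := N.notKer_of_deriv_ne_zero theta (theta_genX_ne_zero (F := F))
  rw [hP₁, genPoint, N.phiPt_some h₁ hk₁, N.phiPt_some _ hk, Point.some.injEq]
  constructor
  · intro hR
    by_contra hmem
    have h0 : P₀ ≠ 0 := fun e => hmem (e ▸ N.zero_mem)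
    have hv : HasValue x₁ (xCoord P₀) := by
      have := value_genPoint_add (A := A) (B := B) h0
      rwa [hP₁, xCoord_some] at this
    have hd : N.den.eval (xCoord P₀) ≠ 0 := by
      intro e
      obtain ⟨Q, hQ, hQx⟩ := Finset.mem_image.mp (N.eval_den_eq_zero_iff.mp e)
      rcases eq_or_eq_neg_of_xCoord_eq (N.mem_nz.mp hQ).1 h0 hQx with e' | e'
      · exact hmem (e' ▸ (N.mem_nz.mp hQ).2)
      · exact hmem (neg_eq_iff_eq_neg.mpr e' ▸ N.neg_mem _ (N.mem_nz.mp hQ).2)
    have hv₁ : HasValue (N.Rx x₁) _ := (hv.aeval N.num).div ((hv.aeval N.den).pow 2)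
      (pow_ne_zero 2 hd)
    obtain ⟨e, ⟨a, he⟩, hexp⟩ := N.expand_Rx
    rw [hR.1, hexp] at hv₁
    refine hv₁.false_of_pole two_ne_zero (b := 1) ?_ one_ne_zero
    have : HasValue (1 + cst N.c₁ * tt ^ 4 + cst N.c₂ * tt ^ 6 + tt ^ 8 * e) (1 : F) := by
      simpa using ((HasValue.one.add ((HasValue.const N.c₁).mul (HasValue.param.pow 4))).add
        ((HasValue.const N.c₂).mul (HasValue.param.pow 6))).add ((HasValue.param.pow 8).mul he)
    convert this using 1
    have ht : ((tt : LF) ^ 2) ≠ 0 := pow_ne_zero _ tt_ne_zero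
    simp only [genX, add_mul]
    rw [inv_mul_cancel₀ ht]
    ring
  · intro hmem
    obtain ⟨-, h1, h2⟩ := N.translate theta theta_genX_ne_zero hmem hP₁
    exact ⟨h1, h2⟩

omit [IsAlgClosed F] [DecidableEq (LaurentSeries F)] [CharZero F]
  [(shortCurve A B).IsElliptic] in
theorem stable_data (σ : F →+* F) (hs : (shortCurve A B).map σ = shortCurve A B)
    (hN : N.pts.image (coordMap σ hs) = N.pts) :
    σ N.A' = N.A' ∧ σ N.B' = N.B' ∧ N.xs.image σ = N.xs ∧ N.den.map σ = N.den ∧
      N.num.map σ = N.num := by
  have hinj := coordMap_injective σ hs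
  have hA : σ A = A := congrArg WeierstrassCurve.a₄ hs
  have hB : σ B = B := congrArg WeierstrassCurve.a₆ hs
  have hnz : N.nz.image (coordMap σ hs) = N.nz := by
    rw [nz, Finset.image_erase hinj, hN, map_zero]
  have hx : ∀ Q : (shortCurve A B).toAffine.Point, xCoord (coordMap σ hs Q) = σ (xCoord Q) :=
    fun Q => xCoord_coordMap σ hs Q
  have hy : ∀ Q : (shortCurve A B).toAffine.Point, yCoord (coordMap σ hs Q) = σ (yCoord Q) := by
    intro Q
    cases Q
    · exact (map_zero σ).symm
    · rfl
  have ha : ∀ Q : (shortCurve A B).toAffine.Point, aC (coordMap σ hs Q) = σ (aC Q) := fun Q => by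
    simp only [aC, hx, map_add, map_mul, map_pow, map_ofNat, hA]
  have hb : ∀ Q : (shortCurve A B).toAffine.Point, bC (coordMap σ hs Q) = σ (bC Q) := fun Q => by
    simp only [bC, hy, map_mul, map_pow, map_ofNat]
  have hsum : ∀ {M : Type _} [AddCommMonoid M] (f : (shortCurve A B).toAffine.Point → M),
      ∑ Q ∈ N.nz, f (coordMap σ hs Q) = ∑ Q ∈ N.nz, f Q := by
    intro M _ f
    conv_rhs => rw [← hnz]
    rw [Finset.sum_image hinj.injOn]
  have hxs : N.xs.image σ = N.xs := by
    rw [xs, Finset.image_image]
    conv_rhs => rw [← hnz, Finset.image_image]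
    exact Finset.image_congr fun Q _ => (hx Q).symm
  have hden : N.den.map σ = N.den := by
    rw [den, Polynomial.map_prod]
    conv_rhs => rw [← hxs, Finset.prod_image σ.injective.injOn]
    simp
  have herase : ∀ z, (N.denErase z).map σ = N.denErase (σ z) := by
    intro z
    rw [denErase, denErase, Polynomial.map_prod]
    conv_rhs => rw [← hxs, ← Finset.image_erase σ.injective, Finset.prod_image σ.injective.injOn]
    simp
  refine ⟨?_, ?_, hxs, hden, ?_⟩
  · have := hsum (fun Q => aC Q)
    simp only [ha] at this
    simp only [A', map_sub, map_mul, map_ofNat, map_sum, hA, this]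
  · have := hsum (fun Q => aC Q * xCoord Q + bC Q)
    simp only [ha, hx, hb] at this
    simp only [B', map_sub, map_add, map_mul, map_ofNat, map_sum, hB] at this ⊢
    rw [this]
  · have := hsum (fun Q => C (aC Q) * N.den * N.denErase (xCoord Q) +
      C (bC Q) * N.denErase (xCoord Q) ^ 2)
    simp only [ha, hb, hx] at this
    simp [num, Polynomial.map_sum, hden, herase, this]

theorem veluHom_equivariant (σ : F →+* F) (hs : (shortCurve A B).map σ = shortCurve A B)
    (hs' : (shortCurve N.A' N.B').map σ = shortCurve N.A' N.B')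
    (hN : N.pts.image (coordMap σ hs) = N.pts) (P : (shortCurve A B).toAffine.Point) :
    N.veluHom (coordMap σ hs P) = coordMap σ hs' (N.veluHom P) := by
  obtain ⟨hA', hB', hxs, hden, hnum⟩ := N.stable_data σ hs hN
  have hA : σ A = A := congrArg WeierstrassCurve.a₄ hs
  have hB : σ B = B := congrArg WeierstrassCurve.a₆ hs
  have hC : (curveL A B LF).map (coeffMap σ) = curveL A B LF :=
    curveL_map σ _ (coeffMap_cst σ) hA hB
  have hC' : (curveL N.A' N.B' LF).map (coeffMap σ) = curveL N.A' N.B' LF :=
    curveL_map σ _ (coeffMap_cst σ) hA' hB'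
  have hfix : coordMap (coeffMap σ) hC (genPoint A B) = genPoint A B := by
    have hr : coeffMap σ (rootS A B) = rootS A B := by
      refine sqrt_unique ?_ (rootS_hasValue A B) ?_
      · simpa using coeffMap_hasValue σ (rootS_hasValue A B)
      · rw [← map_pow, rootS_sq]
        simp only [radicand, map_add, map_mul, map_one, map_pow, coeffMap_cst, coeffMap_tt, hA,
          hB]
    rw [genPoint, coordMap_some, Point.some.injEq]
    simp only [genX, genY, map_inv₀, map_div₀, map_pow, coeffMap_tt, hr, and_self]
  apply coordMap_injective (algebraMap F LF) (short_map (A := N.A') (B := N.B') _)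
  change inclusion (L := LF) (N.velu (coordMap σ hs P)) =
    inclusion (L := LF) (coordMap σ hs' (N.velu P))
  rw [← coordMap_inclusion σ hs' (coeffMap σ) (coeffMap_cst σ) hC', N.inclusion_velu,
    N.inclusion_velu, N.psiL_map σ (coeffMap σ) (coeffMap_cst σ) hden hnum hxs hs hC hC', hfix]

end Hom

end KernelData

end Fermat.Agent.Isogeny
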