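import Mathlib
import Fermat.Prelude.Def_FLTPrelim_GaloisRep
import Fermat.Agent.Isogeny.VeluHom
import Fermat.Agent.Isogeny.VariableChange

/-!
# The quotient of an elliptic curve over `ℚ` by a finite Galois stable subgroup
-/

open WeierstrassCurve WeierstrassCurve.Affine

namespace Fermat.Agent.Isogeny

local notation "QQ" => AlgebraicClosure ℚ
local notation "ι" => algebraMap ℚ (AlgebraicClosure ℚ)

/-- For a finite Galois stable subgroup `N` of odd order (no point of order two), there is an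
elliptic curve over `ℚ` receiving a Galois equivariant homomorphism with kernel exactly `N`. -/
theorem exists_quotient (W : WeierstrassCurve ℚ) [W.IsElliptic]
    (N : AddSubgroup (W⁄QQ).Point) (hfin : (N : Set (W⁄QQ).Point).Finite)
    (h2 : ∀ Q ∈ N, Q + Q = 0 → Q = 0)
    (hgal : ∀ σ : QQ ≃ₐ[ℚ] QQ, ∀ Q ∈ N, σ • Q ∈ N) :
    ∃ W' : WeierstrassCurve ℚ, W'.IsElliptic ∧
      ∃ φ : (W⁄QQ).Point →+ (W'⁄QQ).Point,
        (∀ (σ : QQ ≃ₐ[ℚ] QQ) (P : (W⁄QQ).Point), φ (σ • P) = σ • φ P) ∧ φ.ker = N := by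
  classical
  let : Invertible (2 : ℚ) := invertibleOfNonzero two_ne_zero
  let : Invertible (3 : ℚ) := invertibleOfNonzero three_ne_zero
  set C := W.toShortNF with hC
  set A := ι (C • W).a₄ with hA
  set B := ι (C • W).a₆ with hB
  have hshort : (C.map ι) • (W⁄QQ).toAffine = shortCurve A B := by
    rw [WeierstrassCurve.toAffine]
    exact (map_variableChange (W := W) C ι).trans (by
      ext <;> simp [hC, hA, hB, WeierstrassCurve.map, a₂_of_isShortNF])
  have : (W⁄QQ).IsElliptic := inferInstanceAs ((W.map ι).IsElliptic)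
  have hEll : (shortCurve A B).IsElliptic := hshort ▸ inferInstance
  set e : (W⁄QQ).Point ≃+ (shortCurve A B).toAffine.Point := (vcEquiv (C.map ι) hshort).symm
    with he
  -- Galois acts on the short model coefficientwise
  have hs : ∀ σ : QQ ≃ₐ[ℚ] QQ, (shortCurve A B).map (σ : QQ →+* QQ) = shortCurve A B := fun σ => by
    rw [short_map, hA, hB, RingHom.coe_coe, AlgEquiv.commutes, AlgEquiv.commutes]
  have hequiv : ∀ (σ : QQ ≃ₐ[ℚ] QQ) (P : (W⁄QQ).Point),
      e (σ • P) = coordMap (σ : QQ →+* QQ) (hs σ) (e P) := by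
    intro σ P
    apply e.symm.injective
    rw [AddEquiv.symm_apply_apply]
    have key : ∀ Q : (shortCurve A B).toAffine.Point,
        e.symm (coordMap (σ : QQ →+* QQ) (hs σ) Q) = σ • e.symm Q := by
      intro Q
      rw [he, AddEquiv.symm_symm]
      rcases Q with _ | ⟨x, y, h⟩
      · exact ((Affine.Point.map σ.toAlgHom).map_zero).symm
      · obtain ⟨h', e1⟩ := vcEquiv_some (C.map ι) hshort h
        rw [coordMap_some, e1]
        obtain ⟨h'', e2⟩ := vcEquiv_some (C.map ι) hshort
          (nonsingular_coordMap (σ : QQ →+* QQ) (hs σ) h)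
        rw [e2, Point.algEquiv_smul_def]
        refine Eq.trans ?_ (Point.map_some σ.toAlgHom h').symm
        simp [WeierstrassCurve.VariableChange.map]
    rw [key, AddEquiv.symm_apply_apply]
  let D : KernelData A B :=
    { pts := hfin.toFinset.image e
      zero_mem := Finset.mem_image.mpr ⟨0, hfin.mem_toFinset.mpr N.zero_mem, map_zero e⟩
      add_mem := fun P Q hP hQ => by
        obtain ⟨P', hP', rfl⟩ := Finset.mem_image.mp hP
        obtain ⟨Q', hQ', rfl⟩ := Finset.mem_image.mp hQ
        exact Finset.mem_image.mpr ⟨P' + Q', hfin.mem_toFinset.mpr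
          (N.add_mem (hfin.mem_toFinset.mp hP') (hfin.mem_toFinset.mp hQ')), map_add e P' Q'⟩
      neg_mem := fun P hP => by
        obtain ⟨P', hP', rfl⟩ := Finset.mem_image.mp hP
        exact Finset.mem_image.mpr
          ⟨-P', hfin.mem_toFinset.mpr (N.neg_mem (hfin.mem_toFinset.mp hP')), map_neg e P'⟩
      no_two := fun P hP h => by
        obtain ⟨P', hP', rfl⟩ := Finset.mem_image.mp hP
        rw [← map_add, map_eq_zero_iff e e.injective] at h
        rw [h2 P' (hfin.mem_toFinset.mp hP') h, map_zero] }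
  have hstab : ∀ σ : QQ ≃ₐ[ℚ] QQ,
      D.pts.image (coordMap (σ : QQ →+* QQ) (hs σ)) = D.pts := by
    intro σ
    refine Finset.eq_of_subset_of_card_le ?_ ?_
    · intro P hP
      obtain ⟨P₁, hP₁, rfl⟩ := Finset.mem_image.mp hP
      obtain ⟨P', hP', rfl⟩ := Finset.mem_image.mp hP₁
      exact Finset.mem_image.mpr
        ⟨σ • P', hfin.mem_toFinset.mpr (hgal σ P' (hfin.mem_toFinset.mp hP')), hequiv σ P'⟩
    · rw [Finset.card_image_of_injective _ (coordMap_injective _ (hs σ))]
  obtain ⟨qA, hqA⟩ := exists_algebraMap_eq_of_fixed D.A'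
    fun σ => (D.stable_data (σ : QQ →+* QQ) (hs σ) (hstab σ)).1
  obtain ⟨qB, hqB⟩ := exists_algebraMap_eq_of_fixed D.B'
    fun σ => (D.stable_data (σ : QQ →+* QQ) (hs σ) (hstab σ)).2.1
  have hW' : (shortCurve D.A' D.B').map (RingHom.id QQ) = (shortCurve qA qB)⁄QQ := by
    ext <;> simp [WeierstrassCurve.baseChange, hqA, hqB]
  have hell : (shortCurve qA qB).IsElliptic := by
    have h1 := D.target_isElliptic
    rw [WeierstrassCurve.isElliptic_iff, isUnit_iff_ne_zero, short_Δ] at h1 ⊢
    intro h0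
    apply h1
    rw [← hqA, ← hqB, ← map_pow, ← map_pow]
    have := congrArg ι h0
    simp only [map_mul, map_add, map_neg, map_ofNat, map_pow, map_zero] at this ⊢
    exact this
  have hs' : ∀ σ : QQ ≃ₐ[ℚ] QQ,
      (shortCurve D.A' D.B').map (σ : QQ →+* QQ) = shortCurve D.A' D.B' := fun σ => by
    rw [short_map, ← hqA, ← hqB, RingHom.coe_coe, AlgEquiv.commutes, AlgEquiv.commutes]
  refine ⟨shortCurve qA qB, hell,
    (coordMap (RingHom.id QQ) hW').comp ((D.veluHom).comp e.toAddMonoidHom), ?_, ?_⟩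
  · intro σ P
    simp only [AddMonoidHom.coe_comp, Function.comp_apply, AddEquiv.coe_toAddMonoidHom, hequiv]
    rw [D.veluHom_equivariant _ (hs σ) (hs' σ) (hstab σ)]
    cases D.veluHom (e P) <;> rfl
  · ext P
    rw [AddMonoidHom.mem_ker, AddMonoidHom.coe_comp, Function.comp_apply,
      map_eq_zero_iff _ (coordMap_injective _ hW'), AddMonoidHom.coe_comp, Function.comp_apply,
      D.mem_ker_veluHom]
    constructor
    · intro h
      obtain ⟨P', hP', heP⟩ := Finset.mem_image.mp h
      exact e.injective heP ▸ hfin.mem_toFinset.mp hP'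
    · exact fun h => Finset.mem_image.mpr ⟨P, hfin.mem_toFinset.mpr h, rfl⟩

end Fermat.Agent.Isogeny
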