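import Mathlib
import Fermat.Prelude.Def_FLTPrelim_CofixedLine
import Fermat.Agent.Isogeny.Quotient
import Fermat.Agent.MultRed.Frey
import Fermat.Agent.EllTorsion.Count

/-!
# A cofixed line gives an isogenous curve with a rational point of order `p`
-/

open WeierstrassCurve WeierstrassCurve.Affine WeierstrassCurve.Affine.Point

namespace Fermat.Agent.Isogeny

local notation "QQ" => AlgebraicClosure ℚ

/-- A Galois fixed point of `E(ℚ̄)` comes from `E(ℚ)`. -/
theorem exists_baseChange_eq_of_fixed (W : WeierstrassCurve ℚ) [W.IsElliptic] (P : (W⁄QQ).Point)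
    (hP : ∀ σ : QQ ≃ₐ[ℚ] QQ, σ • P = P) :
    ∃ P₀ : (W⁄ℚ).Point, Point.baseChange ℚ QQ P₀ = P := by
  rcases P with _ | ⟨x, y, h⟩
  · exact ⟨0, rfl⟩
  · have hfix : ∀ σ : QQ ≃ₐ[ℚ] QQ, σ x = x ∧ σ y = y := fun σ => by
      have := hP σ
      rw [algEquiv_smul_def, Point.map_some, Point.some.injEq] at this
      exact this
    obtain ⟨a, rfl⟩ := exists_algebraMap_eq_of_fixed x fun σ => (hfix σ).1
    obtain ⟨b, rfl⟩ := exists_algebraMap_eq_of_fixed y fun σ => (hfix σ).2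
    exact ⟨.some a b ((W.toAffine.baseChange_nonsingular (Algebra.ofId ℚ QQ).injective a b).mp h),
      rfl⟩

/-- Rational points are fixed by Galois. -/
theorem smul_baseChange (W : WeierstrassCurve ℚ) (σ : QQ ≃ₐ[ℚ] QQ) (T : (W⁄ℚ).Point) :
    σ • Point.baseChange (W' := W.toAffine) ℚ QQ T = Point.baseChange ℚ QQ T := by
  rw [algEquiv_smul_def]
  exact Point.map_baseChange σ.toAlgHom T

/-- A subgroup killed by `p ≠ 0` is finite. -/
theorem torsion_finite {W : WeierstrassCurve ℚ} [W.IsElliptic] {p : ℕ} (hp : p ≠ 0)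
    (N : AddSubgroup (W⁄QQ).Point) (h : ∀ z ∈ N, p • z = 0) :
    (N : Set (W⁄QQ).Point).Finite := by
  have := EllTorsion.finite_torsionBy_baseChange W QQ hp
  refine (Set.finite_range fun x : Submodule.torsionBy ℤ (W⁄QQ).Point (p : ℤ) =>
    (x : (W⁄QQ).Point)).subset fun z hz => ?_
  exact ⟨⟨z, (Submodule.mem_torsionBy_iff _ _).mpr (by rw [natCast_zsmul]; exact h z hz)⟩, rfl⟩

/-- From a cofixed line, an elliptic curve over `ℚ` with a rational point of order `p`; rational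
points of order prime to `p` map injectively (and as a homomorphism). -/
theorem exists_quotient_with_point (W : WeierstrassCurve ℚ) [W.IsElliptic] (p : ℕ)
    (hp : p.Prime) (hp2 : p ≠ 2)
    (h : HasGaloisStableCofixedLine (K := QQ) ℚ W p) :
    ∃ W' : WeierstrassCurve ℚ, W'.IsElliptic ∧
      ∃ (ψ : (W⁄ℚ).Point →+ (W'⁄ℚ).Point) (P : (W'⁄ℚ).Point),
        addOrderOf P = p ∧ ∀ T, ψ T = 0 → p • T = 0 := by
  have : Fact p.Prime := ⟨hp⟩
  obtain ⟨N, hstab, hbot, htop, hcof⟩ := h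
  set N' : AddSubgroup (W⁄QQ).Point := N.toAddSubgroup.map
    (Submodule.torsionBy ℤ (W⁄QQ).Point p).toAddSubgroup.subtype with hN'
  have hmem : ∀ z : (W⁄QQ).Point, z ∈ N' ↔ ∃ x ∈ N, (x : (W⁄QQ).Point) = z := fun z => Iff.rfl
  have htors : ∀ z ∈ N', p • z = 0 := by
    intro z hz
    obtain ⟨x, -, rfl⟩ := (hmem z).mp hz
    have := (Submodule.mem_torsionBy_iff _ _).mp x.2
    rwa [natCast_zsmul] at this
  have h2 : ∀ Q ∈ N', Q + Q = 0 → Q = 0 := by
    intro Q hQ hQ2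
    obtain ⟨k, hk⟩ := hp.odd_of_ne_two hp2
    have := htors Q hQ
    rwa [hk, succ_nsmul, mul_nsmul, two_nsmul, hQ2, nsmul_zero, zero_add]
      at this
  obtain ⟨n₀, hn₀⟩ : ∃ x : Submodule.torsionBy ℤ (W⁄QQ).Point p, x ∉ N := by
    by_contra hall
    push Not at hall
    exact htop (eq_top_iff.mpr fun x _ => hall x)
  have hfin : (N' : Set (W⁄QQ).Point).Finite := torsion_finite hp.ne_zero N' htors
  have hgal : ∀ σ : QQ ≃ₐ[ℚ] QQ, ∀ Q ∈ N', σ • Q ∈ N' := by
    intro σ Q hQ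
    obtain ⟨x, hx, rfl⟩ := (hmem Q).mp hQ
    exact (hmem _).mpr ⟨σ • x, hstab σ x hx, rfl⟩
  obtain ⟨W', hW', φ, heq, hker⟩ := exists_quotient W N' hfin h2 hgal
  refine ⟨W', hW', ?_⟩
  -- the point of order `p`
  have hfix : ∀ σ : QQ ≃ₐ[ℚ] QQ, σ • φ n₀ = φ n₀ := fun σ => by
    rw [← heq, ← sub_eq_zero, ← map_sub, ← AddMonoidHom.mem_ker, hker]
    exact (hmem _).mpr ⟨σ • n₀ - n₀, hcof σ n₀, rfl⟩
  obtain ⟨P, hP⟩ := exists_baseChange_eq_of_fixed W' _ hfix
  have hPne : P ≠ 0 := by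
    intro h0
    rw [h0, _root_.map_zero, eq_comm, ← AddMonoidHom.mem_ker, hker] at hP
    obtain ⟨x, hx, hxe⟩ := (hmem _).mp hP
    exact hn₀ (Subtype.ext hxe ▸ hx)
  have hPp : p • P = 0 := by
    apply Point.map_injective (f := Algebra.ofId ℚ QQ)
    change Point.baseChange ℚ QQ (p • P) = Point.baseChange ℚ QQ 0
    rw [map_nsmul, hP, _root_.map_zero, ← map_nsmul]
    have := (Submodule.mem_torsionBy_iff _ _).mp n₀.2
    rw [natCast_zsmul] at this
    rw [this, _root_.map_zero]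
  -- the map on rational points
  have hrat : ∀ T : (W⁄ℚ).Point, ∃ T' : (W'⁄ℚ).Point,
      Point.baseChange ℚ QQ T' = φ (Point.baseChange ℚ QQ T) := fun T =>
    exists_baseChange_eq_of_fixed W' _ fun σ => by rw [← heq, smul_baseChange]
  choose f hf using hrat
  have hfadd : ∀ S T, f (S + T) = f S + f T := fun S T => by
    apply Point.map_injective (f := Algebra.ofId ℚ QQ)
    change Point.baseChange ℚ QQ (f (S + T)) = Point.baseChange ℚ QQ (f S + f T)
    rw [map_add, hf, hf, hf, map_add, map_add]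
  refine ⟨AddMonoidHom.mk' f hfadd, P, addOrderOf_eq_prime hPp hPne, ?_⟩
  intro T hT
  apply Point.map_injective (f := Algebra.ofId ℚ QQ)
  change Point.baseChange ℚ QQ (p • T) = Point.baseChange ℚ QQ 0
  rw [map_nsmul, _root_.map_zero]
  apply htors
  rw [← hker, AddMonoidHom.mem_ker, ← hf]
  rw [AddMonoidHom.mk'_apply] at hT
  rw [hT, _root_.map_zero]

/-- The specialisation to the Frey curve: a rational point of order `p` and full rational
`2`-torsion. -/
theorem exists_curve_of_frey_cofixedLine (P : FreyPackage)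
    (h : HasGaloisStableCofixedLine (K := QQ) ℚ P.freyCurve P.p) :
    ∃ W' : WeierstrassCurve ℚ, W'.IsElliptic ∧
      ∃ Q T₁ T₂ : W'.toAffine.Point,
        addOrderOf Q = P.p ∧ addOrderOf T₁ = 2 ∧ addOrderOf T₂ = 2 ∧ T₁ ≠ T₂ := by
  set A : ℚ := (P.a : ℚ) ^ P.p with hA
  set B : ℚ := (P.b : ℚ) ^ P.p with hB
  have hA0 : A ≠ 0 := pow_ne_zero _ (Int.cast_ne_zero.mpr P.ha0)
  have hell : P.freyCurve.IsElliptic := by
    rw [WeierstrassCurve.isElliptic_iff, isUnit_iff_ne_zero, ← MultRed.freyCurveInt_map,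
      WeierstrassCurve.map_Δ, map_ne_zero_iff _ (Int.cast_injective (α := ℚ))]
    exact MultRed.freyCurveInt_Δ_ne_zero P
  have hp2 : P.p ≠ 2 := by have := P.hp5; omega
  obtain ⟨W', hW', ψ, Q, hQ, hψ⟩ := exists_quotient_with_point P.freyCurve P.p P.pp hp2 h
  obtain ⟨a₁, a₂, a₃, a₄, a₆⟩ :
      P.freyCurve.a₁ = 1 ∧ P.freyCurve.a₂ = (B - 1 - A) / 4 ∧ P.freyCurve.a₃ = 0 ∧
        P.freyCurve.a₄ = -A * B / 16 ∧ P.freyCurve.a₆ = 0 := ⟨rfl, rfl, rfl, rfl, rfl⟩
  have hns : ∀ x : ℚ, x = 0 ∨ x = A / 4 →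
      (P.freyCurve.toAffine⁄ℚ).Nonsingular x (-x / 2) := by
    intro x hx
    have : (P.freyCurve.toAffine⁄ℚ).IsElliptic :=
      inferInstanceAs ((P.freyCurve.map (algebraMap ℚ ℚ)).IsElliptic)
    refine (equation_iff_nonsingular (W := P.freyCurve.toAffine⁄ℚ)).mp
      ((equation_iff' _ _).mpr ?_)
    simp only [WeierstrassCurve.baseChange, WeierstrassCurve.map, Algebra.algebraMap_self,
      RingHom.id_apply, WeierstrassCurve.toAffine, a₁, a₂, a₃, a₄, a₆]
    rcases hx with rfl | rfl <;> ring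
  have hord : ∀ (x : ℚ) (hx : x = 0 ∨ x = A / 4),
      2 • (Point.some x (-x / 2) (hns x hx) : (P.freyCurve.toAffine⁄ℚ).Point) = 0 := by
    intro x hx
    rw [two_nsmul]
    refine Point.add_self_of_Y_eq ?_
    simp only [negY, WeierstrassCurve.baseChange, WeierstrassCurve.map, Algebra.algebraMap_self,
      RingHom.id_apply, WeierstrassCurve.toAffine, a₁, a₃]
    ring
  have hkey : ∀ S : (P.freyCurve.toAffine⁄ℚ).Point, 2 • S = 0 → ψ S = 0 → S = 0 := by
    intro S h2S hS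
    obtain ⟨k, hk⟩ := P.pp.odd_of_ne_two hp2
    have := hψ S hS
    rwa [hk, succ_nsmul, mul_nsmul, h2S, nsmul_zero, zero_add] at this
  have hne : ∀ (x : ℚ) (hx : x = 0 ∨ x = A / 4),
      ψ (Point.some x (-x / 2) (hns x hx)) ≠ 0 := fun x hx he =>
    Point.some_ne_zero _ (hkey _ (hord x hx) he)
  have h2' : ∀ (x : ℚ) (hx : x = 0 ∨ x = A / 4),
      addOrderOf (ψ (Point.some x (-x / 2) (hns x hx))) = 2 := fun x hx => by
    have : Fact (Nat.Prime 2) := ⟨Nat.prime_two⟩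
    refine addOrderOf_eq_prime ?_ (hne x hx)
    rw [← map_nsmul, hord x hx]
    exact ψ.map_zero
  refine ⟨W', hW', Q, ψ (Point.some _ _ (hns 0 (Or.inl rfl))),
    ψ (Point.some _ _ (hns (A / 4) (Or.inr rfl))), hQ, h2' 0 (Or.inl rfl), h2' _ (Or.inr rfl), ?_⟩
  intro he
  have he' : ψ (Point.some _ _ (hns 0 (Or.inl rfl)) - Point.some _ _ (hns (A / 4) (Or.inr rfl)))
      = (0 : (W'⁄ℚ).Point) := (ψ.map_sub _ _).trans (sub_eq_zero.mpr he)
  have h0 := hkey _ (by
    refine (nsmul_sub _ _ 2).trans ?_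
    rw [hord 0 (Or.inl rfl), hord _ (Or.inr rfl)]
    exact sub_zero _) he'
  rw [sub_eq_zero, Point.some.injEq] at h0
  exact hA0 (by linear_combination -4 * h0.1)

end Fermat.Agent.Isogeny
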